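/-
P-FF (S19, S32), abstract bridge (helper10): INTERFACES.

`HasHopfModel ℓ Z act` is the existential statement occurring in the frozen statements S19 and
in the prelude definition `GaloisRepAdic.IsFlatAt`, for an abstract finite commutative group `Z`
with an action `act` of `G_ℚ`.  `IsConcreteHopfOrder ℓ act H₀` is what the construction blocks of
P-FF have to provide: an algebra of `ℚ̄`-valued functions on `Z` over `ℤ_(ℓ)` which is finitely
generated as a module, Galois equivariant, separates points and is closed under the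
comultiplication and the antipode.  The bridge theorem is `ConcreteOrderStatement`.
-/
import Mathlib
import Fermat.Prelude.Def_GaloisRep_Flat

set_option autoImplicit false

noncomputable section

namespace Fermat.Agent.H10.FF

/-- The absolute Galois group of `ℚ`. -/
abbrev GQ : Type := AlgebraicClosure ℚ ≃ₐ[ℚ] AlgebraicClosure ℚ

/-- The ring `ℤ_(ℓ)`. -/
abbrev Zl (ℓ : ℕ) : Type := ↥(GaloisRep.ratLocalizedAt ℓ)

/-- The existential statement of S19 / `IsFlatAt` for an abstract commutative group `Z` with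
Galois action `act`: a finite flat commutative cocommutative Hopf algebra over `ℤ_(ℓ)` whose
`ℚ̄`-points are `Z`, compatibly with the group laws and the Galois actions. -/
def HasHopfModel (ℓ : ℕ) (Z : Type) [AddCommGroup Z] (act : GQ → Z → Z) : Prop :=
  ∃ (H : Type) (_ : CommRing H) (_ : HopfAlgebra (GaloisRep.ratLocalizedAt ℓ) H),
    Module.Finite (GaloisRep.ratLocalizedAt ℓ) H ∧ Module.Flat (GaloisRep.ratLocalizedAt ℓ) H ∧
    Coalgebra.IsCocomm (GaloisRep.ratLocalizedAt ℓ) H ∧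
    ∃ e : WithConv (H →ₐ[GaloisRep.ratLocalizedAt ℓ] AlgebraicClosure ℚ) ≃ Z,
      (∀ f g, e (f * g) = e f + e g) ∧
      ∀ (σ : GQ) (f g : WithConv (H →ₐ[GaloisRep.ratLocalizedAt ℓ] AlgebraicClosure ℚ)),
        (∀ h : H, g h = σ (f h)) → e g = act σ (e f)

/-- A concrete Hopf order: an algebra of functions on `Z` with values in `ℚ̄`. -/
structure IsConcreteHopfOrder (ℓ : ℕ) {Z : Type} [AddCommGroup Z] (act : GQ → Z → Z)
    (H₀ : Subalgebra (Zl ℓ) (Z → AlgebraicClosure ℚ)) : Prop where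
  /-- Galois equivariance -/
  equivariant : ∀ h ∈ H₀, ∀ (σ : GQ) (z : Z), h (act σ z) = σ (h z)
  /-- finitely generated as a module -/
  finite : (Subalgebra.toSubmodule H₀).FG
  /-- separation of points -/
  separates : ∀ z z' : Z, z ≠ z' → ∃ h ∈ H₀, h z ≠ h z'
  /-- closed under comultiplication -/
  comul_mem : ∀ h ∈ H₀, ∃ (n : ℕ) (a b : Fin n → Z → AlgebraicClosure ℚ),
    (∀ i, a i ∈ H₀) ∧ (∀ i, b i ∈ H₀) ∧ ∀ z z' : Z, h (z + z') = ∑ i, a i z * b i z'
  /-- closed under the antipode -/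
  antipode_mem : ∀ h ∈ H₀, (fun z => h (-z)) ∈ H₀

/-- **FF-CORE** A concrete Hopf order on a finite group `Z` with an action of `G_ℚ` is a Hopf
model of `Z`. -/
def ConcreteOrderStatement : Prop :=
  ∀ (ℓ : ℕ) [Fact ℓ.Prime] (Z : Type) [AddCommGroup Z] [Finite Z] [MulAction GQ Z]
    (H₀ : Subalgebra (Zl ℓ) (Z → AlgebraicClosure ℚ)),
    IsConcreteHopfOrder ℓ (fun (σ : GQ) (z : Z) => σ • z) H₀ →
    HasHopfModel ℓ Z (fun (σ : GQ) (z : Z) => σ • z)

/-- **FF-E (sub)** Hopf models pass to Galois-stable subgroups. -/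
def SubgroupModelStatement : Prop :=
  ∀ (ℓ : ℕ) [Fact ℓ.Prime] (Z : Type) [AddCommGroup Z] [Finite Z] [MulAction GQ Z]
    (Z' : AddSubgroup Z) (hZ' : ∀ (σ : GQ), ∀ z ∈ Z', σ • z ∈ Z'),
    HasHopfModel ℓ Z (fun (σ : GQ) (z : Z) => σ • z) →
    HasHopfModel ℓ Z' (fun (σ : GQ) (z : Z') => ⟨σ • (z : Z), hZ' σ z z.2⟩)

/-- **FF-E (quotient)** Hopf models pass to equivariant quotients. -/
def QuotientModelStatement : Prop :=
  ∀ (ℓ : ℕ) [Fact ℓ.Prime] (Z : Type) [AddCommGroup Z] [Finite Z] [MulAction GQ Z]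
    (Z'' : Type) [AddCommGroup Z''] [MulAction GQ Z''] (π : Z →+ Z''),
    Function.Surjective π → (∀ (σ : GQ) (z : Z), π (σ • z) = σ • π z) →
    HasHopfModel ℓ Z (fun (σ : GQ) (z : Z) => σ • z) →
    HasHopfModel ℓ Z'' (fun (σ : GQ) (z : Z'') => σ • z)

/-- Transport of Hopf models along equivariant isomorphisms (for the adapters to S19 / S32). -/
theorem HasHopfModel.congr {ℓ : ℕ} {Z Z' : Type} [AddCommGroup Z] [AddCommGroup Z']
    {act : GQ → Z → Z} {act' : GQ → Z' → Z'} (φ : Z ≃+ Z')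
    (hφ : ∀ (σ : GQ) (z : Z), φ (act σ z) = act' σ (φ z)) (h : HasHopfModel ℓ Z act) :
    HasHopfModel ℓ Z' act' := by
  obtain ⟨H, i1, i2, hfin, hflat, hco, e, hadd, hgal⟩ := h
  refine ⟨H, i1, i2, hfin, hflat, hco, e.trans φ.toEquiv, ?_, ?_⟩
  · intro f g
    simp [hadd]
  · intro σ f g hfg
    simp only [Equiv.trans_apply, AddEquiv.toEquiv_eq_coe, EquivLike.coe_coe]
    rw [hgal σ f g hfg, hφ]

end Fermat.Agent.H10.FF
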