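/-
P-FF, abstract bridge (helper10): for a FINITE group `Z` the closure of a concrete Hopf order
under the antipode is a consequence of the closure under comultiplication
(`h(-z) = h((2|Z| - 1) z)` and `z ↦ h(n z)` is obtained by iterating the comultiplication).
-/
import Mathlib
import Fermat.Agent.H10.FF.Interfaces

set_option autoImplicit false

noncomputable section

namespace Fermat.Agent.H10.FF

/-- Closure under comultiplication implies closure under the multiplication-by-`n + 1` maps. -/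
theorem ff_nsmul_mem {ℓ : ℕ} {Z : Type} [AddCommGroup Z]
    (H₀ : Subalgebra (Zl ℓ) (Z → AlgebraicClosure ℚ))
    (hcomul : ∀ h ∈ H₀, ∃ (n : ℕ) (a b : Fin n → Z → AlgebraicClosure ℚ),
      (∀ i, a i ∈ H₀) ∧ (∀ i, b i ∈ H₀) ∧ ∀ z z' : Z, h (z + z') = ∑ i, a i z * b i z') :
    ∀ n : ℕ, ∀ h ∈ H₀, (fun z : Z => h ((n + 1) • z)) ∈ H₀ := by
  intro n
  induction n with
  | zero =>
    intro h hh
    simpa using hh
  | succ n ih =>
    intro h hh
    obtain ⟨m, a, b, ha, hb, hab⟩ := hcomul h hh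
    have h1 : (fun z : Z => h ((n + 1 + 1) • z)) =
        ∑ i, a i * (fun z : Z => b i ((n + 1) • z)) := by
      funext z
      rw [succ_nsmul' z (n + 1), hab]
      simp
    rw [h1]
    exact H₀.sum_mem (fun i _ => H₀.mul_mem (ha i) (ih (b i) (hb i)))

/-- Closure under comultiplication implies closure under the antipode, for finite `Z`. -/
theorem ff_antipode_mem_of_comul {ℓ : ℕ} {Z : Type} [AddCommGroup Z] [Finite Z]
    (H₀ : Subalgebra (Zl ℓ) (Z → AlgebraicClosure ℚ))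
    (hcomul : ∀ h ∈ H₀, ∃ (n : ℕ) (a b : Fin n → Z → AlgebraicClosure ℚ),
      (∀ i, a i ∈ H₀) ∧ (∀ i, b i ∈ H₀) ∧ ∀ z z' : Z, h (z + z') = ∑ i, a i z * b i z') :
    ∀ h ∈ H₀, (fun z : Z => h (-z)) ∈ H₀ := by
  intro h hh
  have hpos : 0 < Nat.card Z := Nat.card_pos
  have key := ff_nsmul_mem H₀ hcomul (2 * Nat.card Z - 2) h hh
  have h1 : ∀ z : Z, (2 * Nat.card Z - 2 + 1) • z = -z := by
    intro z
    have h2 : (2 * Nat.card Z - 2 + 1) • z + z = 0 := by
      rw [← succ_nsmul]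
      have h3 : 2 * Nat.card Z - 2 + 1 + 1 = 2 * Nat.card Z := by omega
      rw [h3, mul_comm, mul_nsmul, card_nsmul_eq_zero', nsmul_zero]
    exact eq_neg_of_add_eq_zero_left h2
  simpa only [h1] using key

/-- Constructor for concrete Hopf orders on a finite group without the antipode condition. -/
theorem IsConcreteHopfOrder.of_comul {ℓ : ℕ} {Z : Type} [AddCommGroup Z] [Finite Z]
    (act : GQ → Z → Z) (H₀ : Subalgebra (Zl ℓ) (Z → AlgebraicClosure ℚ))
    (equivariant : ∀ h ∈ H₀, ∀ (σ : GQ) (z : Z), h (act σ z) = σ (h z))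
    (finite : (Subalgebra.toSubmodule H₀).FG)
    (separates : ∀ z z' : Z, z ≠ z' → ∃ h ∈ H₀, h z ≠ h z')
    (comul_mem : ∀ h ∈ H₀, ∃ (n : ℕ) (a b : Fin n → Z → AlgebraicClosure ℚ),
      (∀ i, a i ∈ H₀) ∧ (∀ i, b i ∈ H₀) ∧ ∀ z z' : Z, h (z + z') = ∑ i, a i z * b i z') :
    IsConcreteHopfOrder ℓ act H₀ :=
  ⟨equivariant, finite, separates, comul_mem, ff_antipode_mem_of_comul H₀ comul_mem⟩

end Fermat.Agent.H10.FF
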