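/-
P-FF, abstract bridge (helper10): ring theory of `ℤ_(ℓ) = GaloisRep.ratLocalizedAt ℓ`
(discrete valuation ring with fraction field `ℚ`).
-/
import Mathlib
import Fermat.Agent.H10.FF.Interfaces

set_option autoImplicit false
set_option linter.style.haveILetI false

noncomputable section

namespace Fermat.Agent.H10.FF

variable (ℓ : ℕ)

theorem zl_mem_iff (q : ℚ) : q ∈ GaloisRep.ratLocalizedAt ℓ ↔ q.den.Coprime ℓ := Iff.rfl

theorem zl_intCast_mem (n : ℤ) : (n : ℚ) ∈ GaloisRep.ratLocalizedAt ℓ := by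
  rw [zl_mem_iff]
  simp

theorem zl_inv_intCast_mem [Fact ℓ.Prime] (m : ℤ) (hm : ¬ (ℓ : ℤ) ∣ m) :
    ((m : ℚ)⁻¹) ∈ GaloisRep.ratLocalizedAt ℓ := by
  have hℓ : ℓ.Prime := Fact.out
  rw [zl_mem_iff]
  have hm0 : m ≠ 0 := by
    rintro rfl
    exact hm (dvd_zero _)
  have hden : ((m : ℚ)⁻¹).den = m.natAbs := by
    rw [Rat.inv_intCast_den]
    simp [hm0]
  rw [hden, Nat.coprime_comm, Nat.Prime.coprime_iff_not_dvd hℓ]
  intro h
  apply hm
  exact Int.natCast_dvd.mpr h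

theorem zl_algebraMap_int (n : ℤ) : ((algebraMap ℤ (Zl ℓ) n : Zl ℓ) : ℚ) = (n : ℚ) := by
  simp

theorem zl_span_isPrime [Fact ℓ.Prime] : (Ideal.span {(ℓ : ℤ)}).IsPrime := by
  have hℓ : ℓ.Prime := Fact.out
  exact (Ideal.span_singleton_prime (by exact_mod_cast hℓ.ne_zero)).mpr
    (Nat.prime_iff_prime_int.mp hℓ)

theorem zl_isLocalization [Fact ℓ.Prime] :
    haveI := zl_span_isPrime ℓ
    IsLocalization (Ideal.span {(ℓ : ℤ)}).primeCompl (Zl ℓ) := by
  have hℓ : ℓ.Prime := Fact.out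
  haveI := zl_span_isPrime ℓ
  rw [isLocalization_iff]
  refine ⟨?_, ?_, ?_⟩
  · rintro ⟨y, hy⟩
    have hy' : ¬ (ℓ : ℤ) ∣ y := by
      intro h
      exact hy (Ideal.mem_span_singleton.mpr h)
    have hy0 : (y : ℚ) ≠ 0 := by
      intro h0
      apply hy'
      have : y = 0 := by exact_mod_cast h0
      rw [this]
      exact dvd_zero _
    refine IsUnit.of_mul_eq_one (⟨(y : ℚ)⁻¹, zl_inv_intCast_mem ℓ y hy'⟩ : Zl ℓ) ?_
    apply Subtype.ext
    simp [hy0]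
  · intro z
    have hz : (z : ℚ).den.Coprime ℓ := z.2
    have hden : ((z : ℚ).den : ℤ) ∈ (Ideal.span {(ℓ : ℤ)}).primeCompl := by
      intro h
      have h0 : ((z : ℚ).den : ℤ) ∈ Ideal.span {(ℓ : ℤ)} := h
      rw [Ideal.mem_span_singleton] at h0
      have h' : ℓ ∣ (z : ℚ).den := by exact_mod_cast h0
      have := Nat.Coprime.eq_one_of_dvd hz.symm h'
      exact hℓ.one_lt.ne' this
    refine ⟨((z : ℚ).num, ⟨((z : ℚ).den : ℤ), hden⟩), ?_⟩
    apply Subtype.ext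
    simp only [Subring.coe_mul, zl_algebraMap_int]
    push_cast
    exact Rat.mul_den_eq_num (z : ℚ)
  · intro x y hxy
    refine ⟨1, ?_⟩
    have h1 := congrArg (Subtype.val) hxy
    simp only [zl_algebraMap_int] at h1
    have : x = y := by exact_mod_cast h1
    rw [this]

instance zl_isFractionRing : IsFractionRing (Zl ℓ) ℚ := by
  refine IsFractionRing.of_field (Zl ℓ) ℚ fun z => ?_
  refine ⟨⟨(z.num : ℚ), zl_intCast_mem ℓ _⟩, ⟨(z.den : ℚ), ?_⟩, ?_⟩
  · have := zl_intCast_mem ℓ (z.den : ℤ)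
    simp
  · show z = (z.num : ℚ) / (z.den : ℚ)
    exact (Rat.num_div_den z).symm

instance zl_isDiscreteValuationRing [Fact ℓ.Prime] : IsDiscreteValuationRing (Zl ℓ) := by
  have hℓ : ℓ.Prime := Fact.out
  have hP : (Ideal.span {(ℓ : ℤ)}) ≠ ⊥ := by
    rw [Ne, Ideal.span_singleton_eq_bot]
    exact_mod_cast hℓ.ne_zero
  have hprime : (Ideal.span {(ℓ : ℤ)}).IsPrime := zl_span_isPrime ℓ
  have hloc : IsLocalization.AtPrime (Zl ℓ) (Ideal.span {(ℓ : ℤ)}) := zl_isLocalization ℓ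
  exact IsLocalization.AtPrime.isDiscreteValuationRing_of_dedekind_domain ℤ hP (Zl ℓ)

end Fermat.Agent.H10.FF
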