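/-
P-FF, abstract bridge (helper10): Galois descent of linear independence for equivariant
`ℚ̄`-valued functions, and linear independence of products of functions.
-/
import Mathlib
import Fermat.Agent.H10.FF.Ring

set_option autoImplicit false

noncomputable section

namespace Fermat.Agent.H10.FF

/-- `ℚ̄ / ℚ` is Galois (for the algebra instance used by the prelude). -/
theorem ff_isGalois : IsGalois ℚ (AlgebraicClosure ℚ) := by
  have h : (AlgebraicClosure.instAlgebra ℚ : Algebra ℚ (AlgebraicClosure ℚ)) =
      DivisionRing.toRatAlgebra := Subsingleton.elim _ _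
  rw [← h]
  infer_instance

/-- An element of `ℚ̄` fixed by the Galois group is rational. -/
theorem ff_exists_rat_of_fixed (x : AlgebraicClosure ℚ) (hx : ∀ σ : GQ, σ x = x) :
    ∃ q : ℚ, algebraMap ℚ (AlgebraicClosure ℚ) q = x := by
  have := ff_isGalois
  exact (InfiniteGalois.mem_range_algebraMap_iff_fixed x).mpr hx

/-- **Galois descent**: `ℚ`-linearly independent Galois-equivariant functions with values in `ℚ̄`
are `ℚ̄`-linearly independent. -/
theorem ff_descent {Z : Type*} [MulAction GQ Z] {ι : Type*} (h : ι → Z → AlgebraicClosure ℚ)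
    (hequiv : ∀ (i : ι) (σ : GQ) (z : Z), h i (σ • z) = σ (h i z))
    (hli : LinearIndependent ℚ h) : LinearIndependent (AlgebraicClosure ℚ) h := by
  classical
  rw [linearIndependent_iff']
  intro s
  induction s using Finset.strongInduction with
  | H s ih =>
    intro c hc i₀ hi₀
    by_contra hne
    obtain ⟨c', hc'⟩ : ∃ c' : ι → AlgebraicClosure ℚ, ∀ i, c' i = (c i₀)⁻¹ * c i :=
      ⟨fun i => (c i₀)⁻¹ * c i, fun _ => rfl⟩
    have hc'0 : ∑ i ∈ s, c' i • h i = 0 := by
      have : ∑ i ∈ s, c' i • h i = (c i₀)⁻¹ • ∑ i ∈ s, c i • h i := by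
        rw [Finset.smul_sum]
        refine Finset.sum_congr rfl fun i _ => ?_
        rw [smul_smul, hc']
      rw [this, hc, smul_zero]
    have hone : c' i₀ = 1 := by rw [hc', inv_mul_cancel₀ hne]
    have hσ : ∀ σ : GQ, ∑ i ∈ s, (σ (c' i)) • h i = 0 := by
      intro σ
      funext z
      have h1 := congrFun hc'0 (σ⁻¹ • z)
      simp only [Finset.sum_apply, Pi.smul_apply, smul_eq_mul, Pi.zero_apply] at h1 ⊢
      have h2 := congrArg σ h1
      rw [map_sum, map_zero] at h2
      rw [← h2]
      refine Finset.sum_congr rfl fun i _ => ?_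
      rw [map_mul, ← hequiv i σ (σ⁻¹ • z), smul_inv_smul]
    have hfix : ∀ i ∈ s, ∀ σ : GQ, σ (c' i) = c' i := by
      intro i hi σ
      by_cases hii : i = i₀
      · rw [hii, hone, map_one]
      · have hrel : ∑ j ∈ s.erase i₀, (σ (c' j) - c' j) • h j = 0 := by
          have h3 : ∑ j ∈ s, (σ (c' j) - c' j) • h j = 0 := by
            simp only [sub_smul, Finset.sum_sub_distrib, hσ σ, hc'0, sub_self]
          rw [← Finset.add_sum_erase s _ hi₀, hone, map_one, sub_self, zero_smul, zero_add] at h3
          exact h3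
        have := ih (s.erase i₀) (Finset.erase_ssubset hi₀) _ hrel i
          (Finset.mem_erase.mpr ⟨hii, hi⟩)
        exact sub_eq_zero.mp this
    have hq : ∀ i ∈ s, ∃ q : ℚ, algebraMap ℚ (AlgebraicClosure ℚ) q = c' i := fun i hi =>
      ff_exists_rat_of_fixed (c' i) (hfix i hi)
    choose! q hq using hq
    have hrelQ : ∑ i ∈ s, q i • h i = 0 := by
      rw [← hc'0]
      refine Finset.sum_congr rfl fun i hi => ?_
      rw [← hq i hi]
      exact (algebraMap_smul (AlgebraicClosure ℚ) (q i) (h i)).symm
    have h0 := linearIndependent_iff'.mp hli s q hrelQ i₀ hi₀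
    have h1 := hq i₀ hi₀
    rw [h0, map_zero, hone] at h1
    exact zero_ne_one h1

/-- Descent from `ℤ_(ℓ)`: `ℤ_(ℓ)`-linearly independent equivariant functions are
`ℚ̄`-linearly independent. -/
theorem ff_descent_zl (ℓ : ℕ) {Z : Type*} [MulAction GQ Z] {ι : Type*}
    (h : ι → Z → AlgebraicClosure ℚ)
    (hequiv : ∀ (i : ι) (σ : GQ) (z : Z), h i (σ • z) = σ (h i z))
    (hli : LinearIndependent (Zl ℓ) h) : LinearIndependent (AlgebraicClosure ℚ) h :=
  ff_descent h hequiv ((LinearIndependent.iff_fractionRing (Zl ℓ) ℚ).mp hli)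

/-- Products of linearly independent families of functions are linearly independent. -/
theorem ff_indep_prod {K : Type*} [Field K] {X Y ι κ : Type*} [Fintype ι] [Fintype κ]
    (f : ι → X → K) (g : κ → Y → K) (hf : LinearIndependent K f) (hg : LinearIndependent K g) :
    LinearIndependent K (fun p : ι × κ => fun q : X × Y => f p.1 q.1 * g p.2 q.2) := by
  classical
  rw [Fintype.linearIndependent_iff] at hf hg ⊢
  intro c hc
  have key : ∀ (y : Y) (i : ι), ∑ j, c (i, j) * g j y = 0 := by
    intro y
    apply hf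
    funext x
    have := congrFun hc (x, y)
    simp only [Finset.sum_apply, Pi.smul_apply, smul_eq_mul, Pi.zero_apply] at this ⊢
    rw [Fintype.sum_prod_type] at this
    rw [← this]
    refine Finset.sum_congr rfl fun i _ => ?_
    rw [Finset.sum_mul]
    refine Finset.sum_congr rfl fun j _ => ?_
    ring
  rintro ⟨i, j⟩
  apply hg (fun j => c (i, j))
  funext y
  have := key y i
  simpa using this

end Fermat.Agent.H10.FF
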