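/-
P-FF, abstract bridge (helper10): a concrete Hopf order (an algebra of `ℚ̄`-valued functions on a
finite commutative group `Z` with `G_ℚ`-action, finitely generated over `ℤ_(ℓ)`, equivariant,
separating points, closed under comultiplication and antipode) is a Hopf model of `Z` in the
exact shape of the frozen statements S19 / `IsFlatAt`.
-/
import Mathlib
import Fermat.Agent.H10.FF.Descent

set_option autoImplicit false
set_option linter.style.haveILetI false
set_option linter.unusedSectionVars false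

noncomputable section

open TensorProduct

namespace Fermat.Agent.H10.FF

local notation "Qb" => AlgebraicClosure ℚ

/-- Pull-back of functions along a map, as an algebra homomorphism. -/
def ffPull (R : Type*) [CommSemiring R] [Algebra R Qb] {X Y : Type*} (π : X → Y) :
    (Y → Qb) →ₐ[R] (X → Qb) where
  toFun f := fun x => f (π x)
  map_one' := rfl
  map_mul' _ _ := rfl
  map_zero' := rfl
  map_add' _ _ := rfl
  commutes' _ := rfl

@[simp] theorem ffPull_apply (R : Type*) [CommSemiring R] [Algebra R Qb] {X Y : Type*}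
    (π : X → Y) (f : Y → Qb) (x : X) : ffPull R π f x = f (π x) := rfl

section

variable {ℓ : ℕ} [Fact ℓ.Prime] {Z : Type} [AddCommGroup Z] [Finite Z] [MulAction GQ Z]
  {H₀ : Subalgebra (Zl ℓ) (Z → Qb)}

/-- The action is additive (consequence of equivariance, closure under comultiplication and
separation). -/
theorem ff_smul_add (hH : IsConcreteHopfOrder ℓ (fun (σ : GQ) (z : Z) => σ • z) H₀)
    (σ : GQ) (z z' : Z) : σ • (z + z') = σ • z + σ • z' := by
  by_contra hne
  obtain ⟨h, hh, hsep⟩ := hH.separates _ _ hne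
  apply hsep
  obtain ⟨n, a, b, ha, hb, hab⟩ := hH.comul_mem h hh
  rw [hH.equivariant h hh σ (z + z'), hab, hab, map_sum]
  refine Finset.sum_congr rfl fun i _ => ?_
  rw [map_mul, ← hH.equivariant (a i) (ha i), ← hH.equivariant (b i) (hb i)]

theorem ff_smul_zero (hH : IsConcreteHopfOrder ℓ (fun (σ : GQ) (z : Z) => σ • z) H₀)
    (σ : GQ) : σ • (0 : Z) = 0 := by
  have := ff_smul_add hH σ 0 0
  rw [add_zero] at this
  exact left_eq_add.mp this

/-- The value at `0` of an element of a concrete Hopf order lies in `ℤ_(ℓ)`. -/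
theorem ff_eval_zero_mem (hH : IsConcreteHopfOrder ℓ (fun (σ : GQ) (z : Z) => σ • z) H₀)
    (h : Z → Qb) (hh : h ∈ H₀) : ∃ r : Zl ℓ, algebraMap (Zl ℓ) Qb r = h 0 := by
  -- rational
  obtain ⟨q, hq⟩ := ff_exists_rat_of_fixed (h 0) (fun σ => by
    have := hH.equivariant h hh σ 0
    simp only [ff_smul_zero hH σ] at this
    exact this.symm)
  -- integral
  have hint : IsIntegral (Zl ℓ) h := IsIntegral.of_mem_of_fg H₀ hH.finite h hh
  have hint0 : IsIntegral (Zl ℓ) (h 0) :=
    hint.map (Pi.evalAlgHom (Zl ℓ) (fun _ : Z => Qb) 0)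
  rw [← hq] at hint0
  have hintq : IsIntegral (Zl ℓ) q :=
    (isIntegral_algebraMap_iff (algebraMap ℚ Qb).injective).mp hint0
  obtain ⟨r, hr⟩ := (IsIntegrallyClosed.isIntegral_iff (R := Zl ℓ) (K := ℚ)).mp hintq
  refine ⟨r, ?_⟩
  rw [← hq, ← hr]
  rfl

end

section basis

variable {ℓ : ℕ} [Fact ℓ.Prime] {Z : Type} [AddCommGroup Z] [Finite Z] [MulAction GQ Z]
  {H₀ : Subalgebra (Zl ℓ) (Z → Qb)}

theorem ff_moduleFinite (hH : IsConcreteHopfOrder ℓ (fun (σ : GQ) (z : Z) => σ • z) H₀) :
    Module.Finite (Zl ℓ) H₀ := by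
  have h1 : Module.Finite (Zl ℓ) (Subalgebra.toSubmodule H₀) := Module.Finite.iff_fg.mpr hH.finite
  exact h1

omit [Fact ℓ.Prime] in
theorem zl_algebraMap_injective : Function.Injective (algebraMap (Zl ℓ) Qb) := by
  intro a b hab
  have h1 : algebraMap ℚ Qb (a : ℚ) = algebraMap ℚ Qb (b : ℚ) := hab
  exact Subtype.ext ((algebraMap ℚ Qb).injective h1)

omit [Fact ℓ.Prime] [Finite Z] [AddCommGroup Z] [MulAction GQ Z] in
theorem ff_torsionFree_fun : Module.IsTorsionFree (Zl ℓ) (Z → Qb) where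
  isSMulRegular r hr f g hfg := by
    have hr0 : algebraMap (Zl ℓ) Qb r ≠ 0 := by
      intro h0
      have : r = 0 := zl_algebraMap_injective (by rw [h0, map_zero])
      exact hr.ne_zero this
    funext z
    have := congrFun hfg z
    simp only [Pi.smul_apply, Algebra.smul_def] at this
    exact mul_left_cancel₀ hr0 this

omit [Fact ℓ.Prime] [Finite Z] [MulAction GQ Z] in
theorem ff_torsionFree : Module.IsTorsionFree (Zl ℓ) H₀ :=
  haveI := ff_torsionFree_fun (ℓ := ℓ) (Z := Z)
  Function.Injective.moduleIsTorsionFree (H₀.val : H₀ → (Z → Qb)) Subtype.val_injective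
    (fun _ _ => rfl)

theorem ff_free (hH : IsConcreteHopfOrder ℓ (fun (σ : GQ) (z : Z) => σ • z) H₀) :
    Module.Free (Zl ℓ) H₀ := by
  haveI := ff_moduleFinite hH
  haveI := ff_torsionFree (ℓ := ℓ) (H₀ := H₀)
  exact Module.free_of_finite_type_torsion_free'

theorem ff_exists_basis (hH : IsConcreteHopfOrder ℓ (fun (σ : GQ) (z : Z) => σ • z) H₀) :
    ∃ n : ℕ, Nonempty (Module.Basis (Fin n) (Zl ℓ) H₀) := by
  haveI := ff_moduleFinite hH
  haveI := ff_torsionFree (ℓ := ℓ) (H₀ := H₀)
  obtain ⟨n, b⟩ := Module.basisOfFiniteTypeTorsionFree' (R := Zl ℓ) (M := H₀)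
  exact ⟨n, ⟨b⟩⟩

/-- The functions of a basis of a concrete Hopf order are `ℚ̄`-linearly independent. -/
theorem ff_basis_indep (hH : IsConcreteHopfOrder ℓ (fun (σ : GQ) (z : Z) => σ • z) H₀)
    {ι : Type*} (b : Module.Basis ι (Zl ℓ) H₀) :
    LinearIndependent Qb (fun i => ((b i : H₀) : Z → Qb)) := by
  apply ff_descent_zl ℓ
  · intro i σ z
    exact hH.equivariant _ (b i).2 σ z
  · have h1 := b.linearIndependent
    have h2 := h1.map' (H₀.val.toLinearMap) (by
      rw [LinearMap.ker_eq_bot]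
      exact Subtype.val_injective)
    exact h2

omit [Fact ℓ.Prime] in
/-- Restriction of scalars for linear independence of functions. -/
theorem ff_indep_restrict {X ι : Type*} [Fintype ι] (v : ι → X → Qb)
    (hv : LinearIndependent Qb v) : LinearIndependent (Zl ℓ) v := by
  rw [Fintype.linearIndependent_iff] at hv ⊢
  intro c hc i
  have h1 := hv (fun i => algebraMap (Zl ℓ) Qb (c i)) (by
    rw [← hc]
    refine Finset.sum_congr rfl fun i _ => ?_
    funext x
    simp [Algebra.smul_def]) i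
  exact zl_algebraMap_injective (by rw [h1, map_zero])

/-- Evaluation of tensors as functions of two variables. -/
def ffEv₂ (H₀ : Subalgebra (Zl ℓ) (Z → Qb)) : H₀ ⊗[Zl ℓ] H₀ →ₐ[Zl ℓ] (Z × Z → Qb) :=
  Algebra.TensorProduct.productMap ((ffPull (Zl ℓ) Prod.fst).comp H₀.val)
    ((ffPull (Zl ℓ) Prod.snd).comp H₀.val)

omit [Fact ℓ.Prime] [Finite Z] [MulAction GQ Z] in
@[simp] theorem ffEv₂_tmul (a b : H₀) (p : Z × Z) :
    ffEv₂ H₀ (a ⊗ₜ[Zl ℓ] b) p = (a : Z → Qb) p.1 * (b : Z → Qb) p.2 := by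
  simp [ffEv₂]

theorem ffEv₂_injective (hH : IsConcreteHopfOrder ℓ (fun (σ : GQ) (z : Z) => σ • z) H₀) :
    Function.Injective (ffEv₂ H₀) := by
  obtain ⟨n, ⟨b⟩⟩ := ff_exists_basis hH
  have hind := ff_basis_indep hH b
  have hprod := ff_indep_prod _ _ hind hind
  have hli : LinearIndependent (Zl ℓ) (fun p : Fin n × Fin n => ffEv₂ H₀ (b.tensorProduct b p)) := by
    have h1 : (fun p : Fin n × Fin n => ffEv₂ H₀ (b.tensorProduct b p)) =
        (fun p : Fin n × Fin n => fun q : Z × Z =>
          ((b p.1 : H₀) : Z → Qb) q.1 * ((b p.2 : H₀) : Z → Qb) q.2) := by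
      funext p q
      rcases p with ⟨i, j⟩
      simp only [Module.Basis.tensorProduct_apply, ffEv₂_tmul]
    rw [h1]
    exact ff_indep_restrict _ hprod
  rw [injective_iff_map_eq_zero]
  intro x hx
  have hx' : ∑ p, (b.tensorProduct b).repr x p • (ffEv₂ H₀ (b.tensorProduct b p)) = 0 := by
    rw [← hx]
    conv_rhs => rw [← (b.tensorProduct b).sum_repr x]
    rw [map_sum]
    refine Finset.sum_congr rfl fun p _ => ?_
    rw [map_smul]
  have hc := (Fintype.linearIndependent_iff.mp hli) (fun p => (b.tensorProduct b).repr x p) hx'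
  rw [← (b.tensorProduct b).sum_repr x]
  refine Finset.sum_eq_zero fun p _ => ?_
  rw [hc p, zero_smul]

end basis

end Fermat.Agent.H10.FF
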