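/-
P-FF, abstract bridge (helper10): the structure maps (comultiplication, counit, antipode) of a
concrete Hopf order and the Hopf algebra axioms.
-/
import Mathlib
import Fermat.Agent.H10.FF.Core

set_option autoImplicit false
set_option linter.style.haveILetI false
set_option linter.unusedSectionVars false

noncomputable section

open TensorProduct

namespace Fermat.Agent.H10.FF

local notation "Qb" => AlgebraicClosure ℚ

section maps

variable {ℓ : ℕ} [Fact ℓ.Prime] {Z : Type} [AddCommGroup Z] [Finite Z] [MulAction GQ Z]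
  {H₀ : Subalgebra (Zl ℓ) (Z → Qb)}

/-- The comultiplication as a function-valued map. -/
def ffComulFun (H₀ : Subalgebra (Zl ℓ) (Z → Qb)) : H₀ →ₐ[Zl ℓ] (Z × Z → Qb) :=
  (ffPull (Zl ℓ) (fun p : Z × Z => p.1 + p.2)).comp H₀.val

omit [Fact ℓ.Prime] [Finite Z] [MulAction GQ Z] in
@[simp] theorem ffComulFun_apply (h : H₀) (p : Z × Z) :
    ffComulFun H₀ h p = (h : Z → Qb) (p.1 + p.2) := rfl

theorem ffComulFun_mem_range (hH : IsConcreteHopfOrder ℓ (fun (σ : GQ) (z : Z) => σ • z) H₀)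
    (h : H₀) : ffComulFun H₀ h ∈ (ffEv₂ H₀).range := by
  obtain ⟨n, a, b, ha, hb, hab⟩ := hH.comul_mem h h.2
  rw [AlgHom.mem_range]
  refine ⟨∑ i, (⟨a i, ha i⟩ : H₀) ⊗ₜ[Zl ℓ] (⟨b i, hb i⟩ : H₀), ?_⟩
  funext p
  rw [map_sum, Finset.sum_apply, ffComulFun_apply, hab]
  refine Finset.sum_congr rfl fun i _ => ?_
  rw [ffEv₂_tmul]

/-- The comultiplication of a concrete Hopf order. -/
def ffComul (hH : IsConcreteHopfOrder ℓ (fun (σ : GQ) (z : Z) => σ • z) H₀) :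
    H₀ →ₐ[Zl ℓ] H₀ ⊗[Zl ℓ] H₀ :=
  ((AlgEquiv.ofInjective (ffEv₂ H₀) (ffEv₂_injective hH)).symm : _ →ₐ[Zl ℓ] _).comp
    ((ffComulFun H₀).codRestrict (ffEv₂ H₀).range (ffComulFun_mem_range hH))

theorem ffEv₂_ffComul (hH : IsConcreteHopfOrder ℓ (fun (σ : GQ) (z : Z) => σ • z) H₀)
    (h : H₀) (p : Z × Z) : ffEv₂ H₀ (ffComul hH h) p = (h : Z → Qb) (p.1 + p.2) := by
  have h1 : ffEv₂ H₀ (ffComul hH h) = ffComulFun H₀ h := by
    have h2 := (AlgEquiv.ofInjective (ffEv₂ H₀) (ffEv₂_injective hH)).apply_symm_apply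
      ((ffComulFun H₀).codRestrict (ffEv₂ H₀).range (ffComulFun_mem_range hH) h)
    have h3 := congrArg Subtype.val h2
    rw [AlgEquiv.ofInjective_apply] at h3
    exact h3
  rw [h1, ffComulFun_apply]

/-- Evaluation at zero. -/
def ffEvZero (H₀ : Subalgebra (Zl ℓ) (Z → Qb)) : H₀ →ₐ[Zl ℓ] Qb :=
  (Pi.evalAlgHom (Zl ℓ) (fun _ : Z => Qb) 0).comp H₀.val

omit [Fact ℓ.Prime] [Finite Z] [MulAction GQ Z] in
@[simp] theorem ffEvZero_apply (h : H₀) : ffEvZero H₀ h = (h : Z → Qb) 0 := rfl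

theorem ffEvZero_mem_range (hH : IsConcreteHopfOrder ℓ (fun (σ : GQ) (z : Z) => σ • z) H₀)
    (h : H₀) : ffEvZero H₀ h ∈ (Algebra.ofId (Zl ℓ) Qb).range := by
  obtain ⟨r, hr⟩ := ff_eval_zero_mem hH h h.2
  rw [AlgHom.mem_range]
  exact ⟨r, hr⟩

omit [Fact ℓ.Prime] in
theorem zl_ofId_injective : Function.Injective (Algebra.ofId (Zl ℓ) Qb) :=
  zl_algebraMap_injective

/-- The counit of a concrete Hopf order. -/
def ffCounit (hH : IsConcreteHopfOrder ℓ (fun (σ : GQ) (z : Z) => σ • z) H₀) :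
    H₀ →ₐ[Zl ℓ] Zl ℓ :=
  ((AlgEquiv.ofInjective (Algebra.ofId (Zl ℓ) Qb) zl_ofId_injective).symm : _ →ₐ[Zl ℓ] _).comp
    ((ffEvZero H₀).codRestrict (Algebra.ofId (Zl ℓ) Qb).range (ffEvZero_mem_range hH))

theorem algebraMap_ffCounit (hH : IsConcreteHopfOrder ℓ (fun (σ : GQ) (z : Z) => σ • z) H₀)
    (h : H₀) : algebraMap (Zl ℓ) Qb (ffCounit hH h) = (h : Z → Qb) 0 := by
  have h2 := (AlgEquiv.ofInjective (Algebra.ofId (Zl ℓ) Qb) zl_ofId_injective).apply_symm_apply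
    ((ffEvZero H₀).codRestrict (Algebra.ofId (Zl ℓ) Qb).range (ffEvZero_mem_range hH) h)
  have h3 := congrArg Subtype.val h2
  rw [AlgEquiv.ofInjective_apply] at h3
  exact h3

/-- The antipode of a concrete Hopf order. -/
def ffAntipode (hH : IsConcreteHopfOrder ℓ (fun (σ : GQ) (z : Z) => σ • z) H₀) :
    H₀ →ₐ[Zl ℓ] H₀ :=
  ((ffPull (Zl ℓ) (fun z : Z => -z)).comp H₀.val).codRestrict H₀ (fun h => hH.antipode_mem h h.2)

omit [Fact ℓ.Prime] [Finite Z] in
@[simp] theorem ffAntipode_apply (hH : IsConcreteHopfOrder ℓ (fun (σ : GQ) (z : Z) => σ • z) H₀)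
    (h : H₀) (z : Z) : (ffAntipode hH h : Z → Qb) z = (h : Z → Qb) (-z) := rfl

/-- Evaluation of triple tensors as functions of three variables. -/
def ffEv₃ (H₀ : Subalgebra (Zl ℓ) (Z → Qb)) :
    H₀ ⊗[Zl ℓ] (H₀ ⊗[Zl ℓ] H₀) →ₐ[Zl ℓ] (Z × (Z × Z) → Qb) :=
  Algebra.TensorProduct.productMap ((ffPull (Zl ℓ) Prod.fst).comp H₀.val)
    ((ffPull (Zl ℓ) Prod.snd).comp (ffEv₂ H₀))

omit [Fact ℓ.Prime] [Finite Z] [MulAction GQ Z] in
@[simp] theorem ffEv₃_tmul (a : H₀) (s : H₀ ⊗[Zl ℓ] H₀) (p : Z × (Z × Z)) :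
    ffEv₃ H₀ (a ⊗ₜ[Zl ℓ] s) p = (a : Z → Qb) p.1 * ffEv₂ H₀ s p.2 := by
  simp [ffEv₃]

theorem ffEv₃_injective (hH : IsConcreteHopfOrder ℓ (fun (σ : GQ) (z : Z) => σ • z) H₀) :
    Function.Injective (ffEv₃ H₀) := by
  obtain ⟨n, ⟨b⟩⟩ := ff_exists_basis hH
  have hind := ff_basis_indep hH b
  have hprod := ff_indep_prod _ _ hind (ff_indep_prod _ _ hind hind)
  set B := b.tensorProduct (b.tensorProduct b) with hB
  have hli : LinearIndependent (Zl ℓ) (fun p : Fin n × (Fin n × Fin n) => ffEv₃ H₀ (B p)) := by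
    have h1 : (fun p : Fin n × (Fin n × Fin n) => ffEv₃ H₀ (B p)) =
        (fun p : Fin n × (Fin n × Fin n) => fun q : Z × (Z × Z) =>
          ((b p.1 : H₀) : Z → Qb) q.1 *
            (((b p.2.1 : H₀) : Z → Qb) q.2.1 * ((b p.2.2 : H₀) : Z → Qb) q.2.2)) := by
      funext p q
      rcases p with ⟨i, j, k⟩
      simp only [hB, Module.Basis.tensorProduct_apply, ffEv₃_tmul, ffEv₂_tmul]
    rw [h1]
    exact ff_indep_restrict _ hprod
  rw [injective_iff_map_eq_zero]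
  intro x hx
  have hx' : ∑ p, B.repr x p • (ffEv₃ H₀ (B p)) = 0 := by
    rw [← hx]
    conv_rhs => rw [← B.sum_repr x]
    rw [map_sum]
    refine Finset.sum_congr rfl fun p _ => ?_
    rw [map_smul]
  have hc := (Fintype.linearIndependent_iff.mp hli) (fun p => B.repr x p) hx'
  rw [← B.sum_repr x]
  refine Finset.sum_eq_zero fun p _ => ?_
  rw [hc p, zero_smul]

end maps

section axioms

variable {ℓ : ℕ} [Fact ℓ.Prime] {Z : Type} [AddCommGroup Z] [Finite Z] [MulAction GQ Z]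
  {H₀ : Subalgebra (Zl ℓ) (Z → Qb)}
  (hH : IsConcreteHopfOrder ℓ (fun (σ : GQ) (z : Z) => σ • z) H₀)

theorem ffEv₃_map_id_comul (t : H₀ ⊗[Zl ℓ] H₀) (x y z : Z) :
    ffEv₃ H₀ (Algebra.TensorProduct.map (AlgHom.id (Zl ℓ) H₀) (ffComul hH) t) (x, (y, z)) =
      ffEv₂ H₀ t (x, y + z) := by
  induction t using TensorProduct.induction_on with
  | zero => simp
  | tmul a b =>
    rw [Algebra.TensorProduct.map_tmul, ffEv₃_tmul, ffEv₂_tmul, ffEv₂_ffComul]
    rfl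
  | add s t hs ht => simp only [map_add, Pi.add_apply, hs, ht]

omit [Fact ℓ.Prime] [Finite Z] [MulAction GQ Z] in
theorem ffEv₃_assoc_tmul (s : H₀ ⊗[Zl ℓ] H₀) (b : H₀) (x y z : Z) :
    ffEv₃ H₀ (Algebra.TensorProduct.assoc (Zl ℓ) (Zl ℓ) (Zl ℓ) H₀ H₀ H₀ (s ⊗ₜ[Zl ℓ] b))
      (x, (y, z)) = ffEv₂ H₀ s (x, y) * (b : Z → Qb) z := by
  induction s using TensorProduct.induction_on with
  | zero => simp
  | tmul u v =>
    rw [Algebra.TensorProduct.assoc_tmul, ffEv₃_tmul, ffEv₂_tmul, ffEv₂_tmul, mul_assoc]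
  | add s t hs ht => simp only [TensorProduct.add_tmul, map_add, Pi.add_apply, hs, ht, add_mul]

theorem ffEv₃_assoc_map_comul_id (t : H₀ ⊗[Zl ℓ] H₀) (x y z : Z) :
    ffEv₃ H₀ (Algebra.TensorProduct.assoc (Zl ℓ) (Zl ℓ) (Zl ℓ) H₀ H₀ H₀
      (Algebra.TensorProduct.map (ffComul hH) (AlgHom.id (Zl ℓ) H₀) t)) (x, (y, z)) =
      ffEv₂ H₀ t (x + y, z) := by
  induction t using TensorProduct.induction_on with
  | zero => simp
  | tmul a b =>
    rw [Algebra.TensorProduct.map_tmul, ffEv₃_assoc_tmul, ffEv₂_tmul, ffEv₂_ffComul]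
    rfl
  | add s t hs ht => simp only [map_add, Pi.add_apply, hs, ht]

theorem ff_coassoc :
    (Algebra.TensorProduct.assoc (Zl ℓ) (Zl ℓ) (Zl ℓ) H₀ H₀ H₀).toAlgHom.comp
      ((Algebra.TensorProduct.map (ffComul hH) (.id (Zl ℓ) H₀)).comp (ffComul hH))
      = (Algebra.TensorProduct.map (.id (Zl ℓ) H₀) (ffComul hH)).comp (ffComul hH) := by
  apply AlgHom.ext
  intro h
  apply ffEv₃_injective hH
  funext ⟨x, y, z⟩
  refine (ffEv₃_assoc_map_comul_id hH (ffComul hH h) x y z).trans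
    (Eq.trans ?_ (ffEv₃_map_id_comul hH (ffComul hH h) x y z).symm)
  rw [ffEv₂_ffComul, ffEv₂_ffComul, add_assoc]

theorem ff_lid_map_counit (t : H₀ ⊗[Zl ℓ] H₀) (z : Z) :
    ((Algebra.TensorProduct.lid (Zl ℓ) H₀
      (Algebra.TensorProduct.map (ffCounit hH) (AlgHom.id (Zl ℓ) H₀) t) : H₀) : Z → Qb) z =
      ffEv₂ H₀ t (0, z) := by
  induction t using TensorProduct.induction_on with
  | zero => simp
  | tmul a b =>
    rw [Algebra.TensorProduct.map_tmul, Algebra.TensorProduct.lid_tmul, ffEv₂_tmul,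
      ← algebraMap_ffCounit hH a]
    simp [Algebra.smul_def]
  | add s t hs ht =>
    simp only [map_add, Pi.add_apply, Subalgebra.coe_add] at hs ht ⊢
    rw [hs, ht]

theorem ff_rid_map_counit (t : H₀ ⊗[Zl ℓ] H₀) (z : Z) :
    ((Algebra.TensorProduct.rid (Zl ℓ) (Zl ℓ) H₀
      (Algebra.TensorProduct.map (AlgHom.id (Zl ℓ) H₀) (ffCounit hH) t) : H₀) : Z → Qb) z =
      ffEv₂ H₀ t (z, 0) := by
  induction t using TensorProduct.induction_on with
  | zero => simp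
  | tmul a b =>
    rw [Algebra.TensorProduct.map_tmul, Algebra.TensorProduct.rid_tmul, ffEv₂_tmul,
      ← algebraMap_ffCounit hH b]
    simp [Algebra.smul_def, mul_comm]
  | add s t hs ht =>
    simp only [map_add, Pi.add_apply, Subalgebra.coe_add] at hs ht ⊢
    rw [hs, ht]

theorem ff_rTensor :
    (Algebra.TensorProduct.map (ffCounit hH) (.id (Zl ℓ) H₀)).comp (ffComul hH)
      = (Algebra.TensorProduct.lid (Zl ℓ) H₀).symm := by
  apply AlgHom.ext
  intro h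
  change _ = (Algebra.TensorProduct.lid (Zl ℓ) H₀).symm h
  rw [AlgEquiv.eq_symm_apply]
  apply Subtype.ext
  funext z
  rw [AlgHom.comp_apply, ff_lid_map_counit, ffEv₂_ffComul, zero_add]

theorem ff_lTensor :
    (Algebra.TensorProduct.map (.id (Zl ℓ) H₀) (ffCounit hH)).comp (ffComul hH)
      = (Algebra.TensorProduct.rid (Zl ℓ) (Zl ℓ) H₀).symm := by
  apply AlgHom.ext
  intro h
  change _ = (Algebra.TensorProduct.rid (Zl ℓ) (Zl ℓ) H₀).symm h
  rw [AlgEquiv.eq_symm_apply]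
  apply Subtype.ext
  funext z
  rw [AlgHom.comp_apply, ff_rid_map_counit, ffEv₂_ffComul, add_zero]

/-- The bialgebra structure of a concrete Hopf order. -/
@[reducible] def ffBialgebra : Bialgebra (Zl ℓ) H₀ :=
  Bialgebra.ofAlgHom (ffComul hH) (ffCounit hH) (ff_coassoc hH) (ff_rTensor hH) (ff_lTensor hH)

theorem ff_lift_antipode_id (t : H₀ ⊗[Zl ℓ] H₀) (z : Z) :
    ((Algebra.TensorProduct.lift (ffAntipode hH) (AlgHom.id (Zl ℓ) H₀)
      (fun _ _ => Commute.all _ _) t : H₀) : Z → Qb) z = ffEv₂ H₀ t (-z, z) := by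
  induction t using TensorProduct.induction_on with
  | zero => simp
  | tmul a b =>
    rw [Algebra.TensorProduct.lift_tmul, ffEv₂_tmul]
    rfl
  | add s t hs ht =>
    simp only [map_add, Pi.add_apply, Subalgebra.coe_add] at hs ht ⊢
    rw [hs, ht]

theorem ff_lift_id_antipode (t : H₀ ⊗[Zl ℓ] H₀) (z : Z) :
    ((Algebra.TensorProduct.lift (AlgHom.id (Zl ℓ) H₀) (ffAntipode hH)
      (fun _ _ => Commute.all _ _) t : H₀) : Z → Qb) z = ffEv₂ H₀ t (z, -z) := by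
  induction t using TensorProduct.induction_on with
  | zero => simp
  | tmul a b =>
    rw [Algebra.TensorProduct.lift_tmul, ffEv₂_tmul]
    rfl
  | add s t hs ht =>
    simp only [map_add, Pi.add_apply, Subalgebra.coe_add] at hs ht ⊢
    rw [hs, ht]

theorem ff_ofId_counit (h : H₀) (z : Z) :
    ((Algebra.ofId (Zl ℓ) H₀ (ffCounit hH h) : H₀) : Z → Qb) z = (h : Z → Qb) 0 := by
  rw [← algebraMap_ffCounit hH h]
  rfl

/-- The Hopf algebra structure of a concrete Hopf order. -/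
@[reducible] def ffHopfAlgebra : HopfAlgebra (Zl ℓ) H₀ :=
  letI := ffBialgebra hH
  HopfAlgebra.ofAlgHom (ffAntipode hH)
    (by
      apply AlgHom.ext
      intro h
      apply Subtype.ext
      funext z
      refine (ff_lift_antipode_id hH (ffComul hH h) z).trans
        (Eq.trans ?_ (ff_ofId_counit hH h z).symm)
      rw [ffEv₂_ffComul]
      simp)
    (by
      apply AlgHom.ext
      intro h
      apply Subtype.ext
      funext z
      refine (ff_lift_id_antipode hH (ffComul hH h) z).trans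
        (Eq.trans ?_ (ff_ofId_counit hH h z).symm)
      rw [ffEv₂_ffComul]
      simp)

omit [Fact ℓ.Prime] [Finite Z] [MulAction GQ Z] in
theorem ffEv₂_comm (t : H₀ ⊗[Zl ℓ] H₀) (x y : Z) :
    ffEv₂ H₀ (TensorProduct.comm (Zl ℓ) H₀ H₀ t) (x, y) = ffEv₂ H₀ t (y, x) := by
  induction t using TensorProduct.induction_on with
  | zero => simp
  | tmul a b =>
    rw [TensorProduct.comm_tmul, ffEv₂_tmul, ffEv₂_tmul, mul_comm]
  | add s t hs ht => simp only [map_add, Pi.add_apply, hs, ht]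

theorem ff_isCocomm :
    letI := ffHopfAlgebra hH
    Coalgebra.IsCocomm (Zl ℓ) H₀ := by
  letI := ffHopfAlgebra hH
  refine ⟨?_⟩
  apply LinearMap.ext
  intro h
  apply ffEv₂_injective hH
  funext ⟨x, y⟩
  refine (ffEv₂_comm (ffComul hH h) x y).trans ?_
  refine Eq.trans ?_ (ffEv₂_ffComul hH h (x, y)).symm
  rw [ffEv₂_ffComul, add_comm]

end axioms

end Fermat.Agent.H10.FF
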