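/-
P-FF row 613 (FF-LC, helper10): generic injectivity of the pullback on torsion classes.

`φ : F → F'` a finite morphism of function fields over an algebraically closed field `K`.
If every root `h ∈ F'` of an element `φ f` (`f ∈ F` with divisor divisible by `d`) lies in
`φ(F)`, then the pullback of divisor classes is injective on `d`-torsion.
-/
import Mathlib
import Fermat.Prelude.Def_AlgebraicCurve_Correspondence

set_option autoImplicit false
set_option linter.style.haveILetI false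

noncomputable section

namespace Fermat.Agent.H10.FF

open AlgebraicCurve

section generic

variable {K F F' : Type*} [Field K] [Field F] [Field F'] [Algebra K F] [Algebra K F']

theorem lc_ord_algebraMap (v : Place K F) (c : K) : v.ord (algebraMap K F c) = 0 := by
  rcases eq_or_ne c 0 with rfl | hc
  · simp
  have h1 : algebraMap K F c * algebraMap K F c⁻¹ = 1 := by
    rw [← map_mul, mul_inv_cancel₀ hc, map_one]
  have h2 : algebraMap K F c⁻¹ * algebraMap K F c = 1 := by
    rw [mul_comm, h1]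
  let u : v.toValuationSubringˣ :=
    ⟨⟨algebraMap K F c, v.algebraMap_mem' c⟩, ⟨algebraMap K F c⁻¹, v.algebraMap_mem' c⁻¹⟩,
      Subtype.ext h1, Subtype.ext h2⟩
  exact v.ord_coe_unit u

theorem lc_ord_pow (v : Place K F) (f : F) (n : ℕ) : v.ord (f ^ n) = (n : ℤ) * v.ord f := by
  have := v.ord_zpow f (n : ℤ)
  rwa [zpow_natCast] at this

/-- The core of the injectivity argument, on divisors. -/
theorem lc_isPrincipal_of_pullback [IsAlgClosed K] [HasPrincipalDivisors K F']
    (φ : F →ₐ[K] F') (hφ : φ.toRingHom.IsIntegral)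
    (hconst : ∀ u : F', u ≠ 0 → (∀ w : Place K F', w.ord u = 0) →
      u ∈ Set.range (algebraMap K F'))
    (hsurj : ∀ v : Place K F, ∃ w : Place K F', w.restrictAlong φ hφ = v)
    (d : ℕ) (hd : 0 < d)
    (hroot : ∀ (f : F) (h : F'), f ≠ 0 → (∀ v : Place K F, (d : ℤ) ∣ v.ord f) →
      h ^ d = φ f → ∃ h₁ : F, φ h₁ = h)
    (D : Divisor K F) (hdD : (d • D).IsPrincipal)
    (hpb : (Divisor.pullbackAlong φ hφ D).IsPrincipal) : D.IsPrincipal := by
  obtain ⟨f, hf0, hf⟩ := hdD
  obtain ⟨h, hh0, hh⟩ := hpb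
  have hfv : ∀ v : Place K F, v.ord f = (d : ℤ) * D v := by
    intro v
    rw [← hf v, Finsupp.smul_apply, nsmul_eq_mul]
  have hφf0 : φ f ≠ 0 := (map_ne_zero φ).mpr hf0
  have hhd0 : h ^ d ≠ 0 := pow_ne_zero d hh0
  -- `φ f / h ^ d` is a constant
  have hu : ∀ w : Place K F', w.ord (φ f * (h ^ d)⁻¹) = 0 := by
    intro w
    rw [w.ord_mul hφf0 (inv_ne_zero hhd0), w.ord_inv, lc_ord_pow, ← hh w,
      Divisor.pullbackAlong_apply, Place.ord_restrictAlong φ hφ, hfv]
    ring
  obtain ⟨c, hc⟩ := hconst _ (mul_ne_zero hφf0 (inv_ne_zero hhd0)) hu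
  have hc0 : c ≠ 0 := by
    rintro rfl
    rw [map_zero] at hc
    exact mul_ne_zero hφf0 (inv_ne_zero hhd0) hc.symm
  obtain ⟨c₀, hc₀⟩ := IsAlgClosed.exists_pow_nat_eq c hd
  have hc₀0 : c₀ ≠ 0 := by
    rintro rfl
    rw [zero_pow hd.ne'] at hc₀
    exact hc0 hc₀.symm
  have hpow : (algebraMap K F' c₀ * h) ^ d = φ f := by
    rw [mul_pow, ← map_pow, hc₀, hc, mul_assoc, inv_mul_cancel₀ hhd0, mul_one]
  obtain ⟨h₁, hh₁⟩ := hroot f (algebraMap K F' c₀ * h) hf0
    (fun v => ⟨D v, hfv v⟩) hpow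
  have hh₁0 : h₁ ≠ 0 := by
    rintro rfl
    rw [map_zero] at hh₁
    exact mul_ne_zero ((map_ne_zero _).mpr hc₀0) hh0 hh₁.symm
  refine ⟨h₁, hh₁0, fun v => ?_⟩
  obtain ⟨w, rfl⟩ := hsurj v
  have he : (0 : ℤ) < (Place.ramificationIndexAlong φ w : ℤ) := by
    have : 0 < Place.ramificationIndexAlong φ w := by
      letI := algebraAlong φ
      haveI := isScalarTower_along φ
      haveI := isIntegral_along φ hφ
      exact Place.ramificationIndex_pos w
    exact_mod_cast this
  have h1 : w.ord (φ h₁) = w.ord h := by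
    rw [hh₁, w.ord_mul ((map_ne_zero _).mpr hc₀0) hh0, lc_ord_algebraMap, zero_add]
  rw [Place.ord_restrictAlong φ hφ, ← hh w, Divisor.pullbackAlong_apply] at h1
  exact (mul_left_cancel₀ he.ne' h1).symm

end generic

section pic

variable {K F F' : Type*} [Field K] [Field F] [Field F'] [Algebra K F] [Algebra K F']
variable [HasPrincipalDivisors K F']
variable (φ : F →ₐ[K] F') (hφ : φ.toRingHom.IsIntegral)
variable (hFI : FundamentalIdentityAlong K φ hφ)

/-- Pullback of divisors of degree zero. -/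
def lcPullDegZero :
    Divisor.degZero (K := K) (F := F) →+ Divisor.degZero (K := K) (F := F') :=
  ((Divisor.pullbackAlong φ hφ).domRestrict
    (Divisor.degZero (K := K) (F := F))).codRestrict _
    (fun D => Divisor.pullbackAlong_mem_degZero φ hφ hFI D.2)

@[simp]
theorem coe_lcPullDegZero (D : Divisor.degZero (K := K) (F := F)) :
    (lcPullDegZero φ hφ hFI D : Divisor K F') = Divisor.pullbackAlong φ hφ (D : Divisor K F) :=
  rfl

/-- Pullback of divisor classes of degree zero. -/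
def lcPullPic0 : Pic0 K F →+ Pic0 K F' :=
  QuotientAddGroup.map _ _ (lcPullDegZero φ hφ hFI) (by
    rintro ⟨D, hD0⟩ hD
    simp only [AddSubgroup.mem_addSubgroupOf] at hD ⊢
    exact Divisor.isPrincipal_pullbackAlong φ hφ hD)

theorem lcPullPic0_mk (D : Divisor.degZero (K := K) (F := F)) :
    lcPullPic0 φ hφ hFI (Pic0.mk D) = Pic0.mk (lcPullDegZero φ hφ hFI D) :=
  rfl

theorem lc_pic0_mk_eq_zero_iff {F : Type*} [Field F] [Algebra K F]
    (D : Divisor.degZero (K := K) (F := F)) :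
    Pic0.mk D = 0 ↔ (D : Divisor K F).IsPrincipal := by
  rw [Pic0.mk, QuotientAddGroup.eq_zero_iff, AddSubgroup.mem_addSubgroupOf]
  rfl

/-- **Injectivity of the pullback on `d`-torsion.** -/
theorem lcPullPic0_eq_zero [IsAlgClosed K]
    (hconst : ∀ u : F', u ≠ 0 → (∀ w : Place K F', w.ord u = 0) →
      u ∈ Set.range (algebraMap K F'))
    (hsurj : ∀ v : Place K F, ∃ w : Place K F', w.restrictAlong φ hφ = v)
    (d : ℕ) (hd : 0 < d)
    (hroot : ∀ (f : F) (h : F'), f ≠ 0 → (∀ v : Place K F, (d : ℤ) ∣ v.ord f) →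
      h ^ d = φ f → ∃ h₁ : F, φ h₁ = h)
    (x : Pic0 K F) (hdx : d • x = 0) (hx : lcPullPic0 φ hφ hFI x = 0) : x = 0 := by
  obtain ⟨D, rfl⟩ := Pic0.mk_surjective x
  rw [lc_pic0_mk_eq_zero_iff]
  have h1 : (d • (D : Divisor K F)).IsPrincipal := by
    have : Pic0.mk (d • D) = 0 := by
      rw [← hdx]
      rfl
    rw [lc_pic0_mk_eq_zero_iff] at this
    exact this
  have h2 : (Divisor.pullbackAlong φ hφ (D : Divisor K F)).IsPrincipal := by
    rw [lcPullPic0_mk, lc_pic0_mk_eq_zero_iff] at hx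
    exact hx
  exact lc_isPrincipal_of_pullback φ hφ hconst hsurj d hd hroot _ h1 h2

end pic

end Fermat.Agent.H10.FF
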