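/-
P-FF row 613 (FF-LC, helper10): Laurent series lemmas for the level change.

* `lc_order_qExpand` : the order of `f(q^M)`.
* `lc_mem_range_of_pow` : over an algebraically closed field of characteristic zero, a `d`-th
  root of `f(q^M)` is a series in `q^M`, provided `d ∣ ord f`.
* `lc_sum_eq_zero` : series in `q^M` times the powers `t^i`, `i < M`, of a series of order one
  are linearly independent.
-/
import Mathlib
import Fermat.Prelude.Def_ModularCurve_X0
import Fermat.Agent.H33.KLM.ModelRoot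
import Fermat.Agent.H98.KL.LaurentConst

set_option autoImplicit false

noncomputable section

namespace Fermat.Agent.H10.FF

open ModularCurve

section order

variable {K : Type} [Field K]

theorem lc_order_qExpand (M : ℕ) [NeZero M] (x : LaurentSeries K) :
    (qExpand K M x).order = (M : ℤ) * x.order := by
  rcases eq_or_ne x 0 with rfl | hx
  · simp
  have hM : (0 : ℤ) < (M : ℤ) := by exact_mod_cast Nat.pos_of_ne_zero (NeZero.ne M)
  have hqx : qExpand K M x ≠ 0 := fun h => hx (qExpand_injective M (by rw [h, map_zero]))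
  apply le_antisymm
  · apply HahnSeries.order_le_of_coeff_ne_zero
    rw [qExpand_coeff_mul]
    exact fun h0 => hx (HahnSeries.coeff_order_eq_zero.mp h0)
  · rw [HahnSeries.le_order_iff_forall hqx]
    intro k hk
    by_cases hdvd : (M : ℤ) ∣ k
    · obtain ⟨m, rfl⟩ := hdvd
      rw [qExpand_coeff_mul]
      have hm : m < x.order := lt_of_mul_lt_mul_left hk hM.le
      exact HahnSeries.coeff_eq_zero_of_lt_order hm
    · exact qExpand_coeff_of_not_dvd M x hdvd

theorem lc_qExpand_ne_zero (M : ℕ) [NeZero M] {x : LaurentSeries K} (hx : x ≠ 0) :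
    qExpand K M x ≠ 0 :=
  fun h => hx (qExpand_injective M (by rw [h, map_zero]))

/-- A root of `f(q^M)` is a series in `q^M`. -/
theorem lc_mem_range_of_pow [CharZero K] [IsAlgClosed K] (M d : ℕ) [NeZero M] (hd : 0 < d)
    (h f : LaurentSeries K) (hf : f ≠ 0) (hdvd : (d : ℤ) ∣ f.order)
    (hpow : h ^ d = qExpand K M f) :
    ∃ w : LaurentSeries K, h = qExpand K M w := by
  obtain ⟨γ, hγ⟩ := IsAlgClosed.exists_pow_nat_eq f.leadingCoeff hd
  obtain ⟨w₀, hw₀⟩ := Fermat.Agent.H33.KLM.modelRoot K d hd f hf hdvd ⟨γ, hγ⟩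
  have hw₀0 : w₀ ≠ 0 := by
    rintro rfl
    rw [zero_pow hd.ne'] at hw₀
    exact hf hw₀.symm
  set g := qExpand K M w₀ with hg
  have hg0 : g ≠ 0 := lc_qExpand_ne_zero M hw₀0
  have hgd : g ^ d = h ^ d := by
    rw [hpow, hg, ← map_pow, hw₀]
  have hξ : (h / g) ^ d = 1 := by
    rw [div_pow, ← hgd, div_self (pow_ne_zero d hg0)]
  have halg : IsAlgebraic K (h / g) := by
    refine ⟨Polynomial.X ^ d - 1, ?_, ?_⟩
    · have := Polynomial.X_pow_sub_C_ne_zero hd (1 : K)
      rwa [map_one] at this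
    · simp [hξ]
  obtain ⟨c, hc⟩ := Fermat.Agent.H98.KL.exists_const_of_isAlgebraic (h / g) halg
  refine ⟨HahnSeries.C c * w₀, ?_⟩
  rw [map_mul, qExpand_C, ← hg]
  have h1 : h = h / g * g := by
    rw [div_mul_cancel₀ h hg0]
  rw [h1, ← hc, Fermat.Agent.H98.KL.algebraMap_eq_C]

theorem lc_order_pow {x : LaurentSeries K} (hx : x ≠ 0) (n : ℕ) :
    (x ^ n).order = (n : ℤ) * x.order := by
  induction n with
  | zero => simp
  | succ n ih =>
    rw [pow_succ, HahnSeries.order_mul (pow_ne_zero n hx) hx, ih]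
    push_cast
    ring

/-- Series in `q^M` times the powers `t^i`, `i < M`, of a series of order one are linearly
independent. -/
theorem lc_sum_eq_zero (M : ℕ) [NeZero M] (T : LaurentSeries K) (hT : T.order = 1)
    (u : Fin M → LaurentSeries K)
    (hsum : ∑ i, qExpand K M (u i) * T ^ (i : ℕ) = 0) : ∀ i, u i = 0 := by
  classical
  have hT0 : T ≠ 0 := by
    rintro rfl
    simp at hT
  by_contra hne
  rw [not_forall] at hne
  obtain ⟨j, hj⟩ := hne
  set S : Finset (Fin M) := Finset.univ.filter (fun i => u i ≠ 0) with hS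
  have hSne : S.Nonempty := ⟨j, by rw [hS, Finset.mem_filter]; exact ⟨Finset.mem_univ _, hj⟩⟩
  let val : Fin M → ℤ := fun i => (M : ℤ) * (u i).order + ((i : ℕ) : ℤ)
  obtain ⟨i₀, hi₀S, hmin⟩ := S.exists_min_image val hSne
  have hmemS : ∀ i, i ∈ S ↔ u i ≠ 0 := by
    intro i
    rw [hS, Finset.mem_filter]
    simp
  have hterm0 : ∀ i, u i ≠ 0 → qExpand K M (u i) * T ^ (i : ℕ) ≠ 0 := fun i hi =>
    mul_ne_zero (lc_qExpand_ne_zero M hi) (pow_ne_zero _ hT0)
  have hterm : ∀ i, u i ≠ 0 → (qExpand K M (u i) * T ^ (i : ℕ)).order = val i := by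
    intro i hi
    rw [HahnSeries.order_mul (lc_qExpand_ne_zero M hi) (pow_ne_zero _ hT0), lc_order_qExpand,
      lc_order_pow hT0, hT, mul_one]
  have hi₀ : u i₀ ≠ 0 := (hmemS i₀).mp hi₀S
  have hcoef := congrArg (fun s : LaurentSeries K => s.coeff (val i₀)) hsum
  simp only [HahnSeries.coeff_sum, HahnSeries.coeff_zero] at hcoef
  rw [Finset.sum_eq_single i₀] at hcoef
  · have h1 : (qExpand K M (u i₀) * T ^ (i₀ : ℕ)).coeff
        (qExpand K M (u i₀) * T ^ (i₀ : ℕ)).order ≠ 0 :=
      fun h0 => hterm0 i₀ hi₀ (HahnSeries.coeff_order_eq_zero.mp h0)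
    rw [hterm i₀ hi₀] at h1
    exact h1 hcoef
  · intro i _ hi
    by_cases hiS : u i = 0
    · simp [hiS]
    · apply HahnSeries.coeff_eq_zero_of_lt_order
      rw [hterm i hiS]
      have hle := hmin i ((hmemS i).mpr hiS)
      refine lt_of_le_of_ne hle ?_
      intro heq
      apply hi
      have hdvd : (M : ℤ) ∣ (((i : ℕ) : ℤ) - ((i₀ : ℕ) : ℤ)) := by
        refine ⟨(u i₀).order - (u i).order, ?_⟩
        have : (M : ℤ) * (u i₀).order + ((i₀ : ℕ) : ℤ) = (M : ℤ) * (u i).order + ((i : ℕ) : ℤ) :=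
          heq
        linarith
      have habs : |((i : ℕ) : ℤ) - ((i₀ : ℕ) : ℤ)| < (M : ℤ) := by
        have h1 := i.2
        have h2 := i₀.2
        rw [abs_lt]
        constructor <;> omega
      have h0 := Int.eq_zero_of_abs_lt_dvd hdvd habs
      apply Fin.ext
      omega
  · intro h
    exact absurd (Finset.mem_univ _) h

end order

end Fermat.Agent.H10.FF
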