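/-
P-FF row 613 (FF-LC, helper10): the pullback `β^* : J₀(N) → J₀(N M)` along `q ↦ q^M`
(`M` prime, `M ∤ N`) is injective on torsion and Galois equivariant.

Proof of injectivity: the cusp `∞` of `X₀(N M)` is ramified of index `M` along `β`, and
`deg β = M + 1 < 2 M` (Atkin–Lehner + `deg α = M + 1`), so `F_{NM} ∩ ℚ̄((q^M)) = β(F_N)`.
-/
import Mathlib
import Fermat.Agent.H10.FF.LCSeries
import Fermat.Agent.H10.FF.LCInj
import Fermat.Agent.H49.ES.EsCAdapters
import Fermat.Agent.H49.ES.GalHecke
import Fermat.Agent.H41.AtkinLehnerBar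
import Fermat.Agent.H9.ESD.LevelChangeFinal
import Fermat.Agent.H60.KLModelCusp
import Fermat.Agent.H29.ESB.Descent

set_option autoImplicit false
set_option linter.style.haveILetI false
set_option synthInstance.maxHeartbeats 400000

noncomputable section

namespace Fermat.Agent.H10.FF

open AlgebraicCurve ModularCurve

local notation "Qb" => AlgebraicClosure ℚ

section degree

variable (N M : ℕ) [NeZero N] [NeZero M]

/-- The degree of `β` is `M + 1`. -/
theorem lc_finrankAlong_beta (hM : M.Prime) (hMN : ¬ M ∣ N) :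
    finrankAlong Qb (heckeBetaBar Qb N M) = M + 1 := by
  have hcop : Nat.Coprime N M := ((Nat.Prime.coprime_iff_not_dvd hM).mpr hMN).symm
  obtain ⟨W, hWα, -⟩ := Fermat.Agent.H41.exists_atkinLehnerBar N M hcop
  haveI : NeZero (N * M) := ⟨Nat.mul_ne_zero (NeZero.ne N) (NeZero.ne M)⟩
  have hα : finrankAlong Qb (heckeAlphaBar Qb N M) = M + 1 :=
    Fermat.Agent.H9.ESD.lc_finrankAlong_bar (N := N) (N' := N * M) (p := M) (mul_comm N M) hM hMN _
  rw [← hα]
  unfold finrankAlong
  symm
  exact @Algebra.finrank_eq_of_equiv_equiv _ _ _ _ (algebraAlong (heckeAlphaBar Qb N M))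
    _ _ _ _ (algebraAlong (heckeBetaBar Qb N M)) (RingEquiv.refl _) W.toRingEquiv
    (RingHom.ext fun x => (hWα x).symm)

end degree

section root

variable (N M : ℕ) [NeZero N] [NeZero M]

/-- The inverse of `j` at level `N`, an element of order one. -/
def lcT : ↥(laurentBaseChange Qb (modularFunctionFieldFull N)) :=
  (Fermat.Agent.H23.jBar N)⁻¹

theorem lcT_order : ((lcT N : ↥(laurentBaseChange Qb (modularFunctionFieldFull N))) :
    LaurentSeries Qb).order = 1 := by
  have h1 : ((Fermat.Agent.H23.jBar N : ↥(laurentBaseChange Qb (modularFunctionFieldFull N))) :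
      LaurentSeries Qb).order = -1 := Fermat.Agent.H60.klm_order_coeffEmb_jq Qb
  have hne : ((Fermat.Agent.H23.jBar N : ↥(laurentBaseChange Qb (modularFunctionFieldFull N))) :
      LaurentSeries Qb) ≠ 0 := by
    intro h0
    rw [h0, HahnSeries.order_zero] at h1
    omega
  have h2 : ((lcT N : ↥(laurentBaseChange Qb (modularFunctionFieldFull N))) : LaurentSeries Qb)
      = ((Fermat.Agent.H23.jBar N : ↥(laurentBaseChange Qb (modularFunctionFieldFull N))) :
      LaurentSeries Qb)⁻¹ := rfl
  rw [h2]
  have h3 := HahnSeries.order_mul hne (inv_ne_zero hne)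
  rw [mul_inv_cancel₀ hne, HahnSeries.order_one, h1] at h3
  omega

/-- **Key lemma**: roots in `F_{N M}` of elements of `β(F_N)` with divisible divisor lie in
`β(F_N)`. -/
theorem lc_root_mem_range (hM : M.Prime) (hMN : ¬ M ∣ N) (d : ℕ) (hd : 0 < d)
    (f : ↥(laurentBaseChange Qb (modularFunctionFieldFull N)))
    (h : ↥(laurentBaseChange Qb (modularFunctionFieldFull (N * M))))
    (hf : f ≠ 0)
    (hdiv : ∀ v : Place Qb ↥(laurentBaseChange Qb (modularFunctionFieldFull N)),
      (d : ℤ) ∣ v.ord f)
    (hpow : h ^ d = heckeBetaBar Qb N M f) :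
    ∃ h₁ : ↥(laurentBaseChange Qb (modularFunctionFieldFull N)), heckeBetaBar Qb N M h₁ = h := by
  classical
  haveI : NeZero (N * M) := ⟨Nat.mul_ne_zero (NeZero.ne N) (NeZero.ne M)⟩
  -- the cusp place
  obtain ⟨P, hP⟩ := Fermat.Agent.H60.modelCuspPlace N Qb
  have hford : (d : ℤ) ∣ (f : LaurentSeries Qb).order := by
    rw [← hP f hf]
    exact hdiv P
  have hfL : (f : LaurentSeries Qb) ≠ 0 := fun h0 => hf (Subtype.ext h0)
  have hpowL : (h : LaurentSeries Qb) ^ d = qExpand Qb M (f : LaurentSeries Qb) := by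
    have := congrArg Subtype.val hpow
    rw [coe_heckeBetaBar] at this
    rw [← this]
    rfl
  obtain ⟨w, hw⟩ := lc_mem_range_of_pow M d hd _ _ hfL hford hpowL
  by_contra hne
  rw [not_exists] at hne
  -- linear independence of `t ^ i`, `h t ^ i`
  letI alg := algebraAlong (heckeBetaBar Qb N M)
  have hdeg := lc_finrankAlong_beta N M hM hMN
  haveI hfin : Module.Finite ↥(laurentBaseChange Qb (modularFunctionFieldFull N))
      ↥(laurentBaseChange Qb (modularFunctionFieldFull (N * M))) :=
    Fermat.Agent.H9.ESD.lc_finiteAlong_of_finrankAlong_ne_zero _ (by rw [hdeg]; omega)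
  let t := lcT (N * M)
  let v : Fin M × Fin 2 → ↥(laurentBaseChange Qb (modularFunctionFieldFull (N * M))) :=
    fun p => (if p.2 = 0 then 1 else h) * t ^ (p.1 : ℕ)
  have hli : LinearIndependent ↥(laurentBaseChange Qb (modularFunctionFieldFull N)) v := by
    rw [Fintype.linearIndependent_iff]
    intro c hc
    have hcL := congrArg Subtype.val hc
    rw [Fintype.sum_prod_type] at hcL
    simp only [Fin.sum_univ_two] at hcL
    have hsum : ∑ i : Fin M, qExpand Qb M
        ((c (i, 0) : LaurentSeries Qb) + (c (i, 1) : LaurentSeries Qb) * w) *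
          ((t : ↥(laurentBaseChange Qb (modularFunctionFieldFull (N * M)))) :
            LaurentSeries Qb) ^ (i : ℕ) = 0 := by
      have hz : ((0 : ↥(laurentBaseChange Qb (modularFunctionFieldFull (N * M)))) :
          LaurentSeries Qb) = 0 := rfl
      rw [← hz, ← hcL]
      rw [show ((∑ x : Fin M, (c (x, 0) • v (x, 0) + c (x, 1) • v (x, 1)) :
          ↥(laurentBaseChange Qb (modularFunctionFieldFull (N * M)))) : LaurentSeries Qb)
          = ∑ x : Fin M, (((c (x, 0) • v (x, 0) + c (x, 1) • v (x, 1)) :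
          ↥(laurentBaseChange Qb (modularFunctionFieldFull (N * M)))) : LaurentSeries Qb) from
        map_sum (laurentBaseChange Qb (modularFunctionFieldFull (N * M))).val _ _]
      refine Finset.sum_congr rfl fun i _ => ?_
      have e0 : c (i, 0) • v (i, 0) = heckeBetaBar Qb N M (c (i, 0)) * t ^ (i : ℕ) := by
        rw [Algebra.smul_def]
        show heckeBetaBar Qb N M (c (i, 0)) * ((if (0 : Fin 2) = 0 then 1 else h) * t ^ (i : ℕ))
          = _
        rw [if_pos rfl, one_mul]
      have e1 : c (i, 1) • v (i, 1) = heckeBetaBar Qb N M (c (i, 1)) * (h * t ^ (i : ℕ)) := by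
        rw [Algebra.smul_def]
        show heckeBetaBar Qb N M (c (i, 1)) * ((if (1 : Fin 2) = 0 then 1 else h) * t ^ (i : ℕ))
          = _
        rw [if_neg (by decide)]
      rw [e0, e1]
      show _ = (heckeBetaBar Qb N M (c (i, 0)) : LaurentSeries Qb) *
          (t : LaurentSeries Qb) ^ (i : ℕ) +
        (heckeBetaBar Qb N M (c (i, 1)) : LaurentSeries Qb) *
          ((h : LaurentSeries Qb) * (t : LaurentSeries Qb) ^ (i : ℕ))
      rw [coe_heckeBetaBar, coe_heckeBetaBar, hw, map_add, map_mul]
      ring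
    have hu := lc_sum_eq_zero M _ (lcT_order (N * M)) _ hsum
    have hc1 : ∀ i : Fin M, c (i, 1) = 0 := by
      intro i
      by_contra hci
      have hciL : (c (i, 1) : LaurentSeries Qb) ≠ 0 := fun h0 => hci (Subtype.ext h0)
      have hwi : w = ((-(c (i, 0)) / c (i, 1) :
          ↥(laurentBaseChange Qb (modularFunctionFieldFull N))) : LaurentSeries Qb) := by
        have := hu i
        show w = -(c (i, 0) : LaurentSeries Qb) / (c (i, 1) : LaurentSeries Qb)
        field_simp
        linear_combination this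
      apply hne (-(c (i, 0)) / c (i, 1))
      apply Subtype.ext
      rw [coe_heckeBetaBar, hw, hwi]
    have hc0 : ∀ i : Fin M, c (i, 0) = 0 := by
      intro i
      have := hu i
      rw [hc1 i] at this
      apply Subtype.ext
      have hz : ((0 : ↥(laurentBaseChange Qb (modularFunctionFieldFull N))) :
          LaurentSeries Qb) = 0 := rfl
      rw [hz, zero_mul, add_zero] at this
      exact this
    rintro ⟨i, ε⟩
    fin_cases ε
    · exact hc0 i
    · exact hc1 i
  have hcard := hli.fintype_card_le_finrank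
  have hdeg' : Module.finrank ↥(laurentBaseChange Qb (modularFunctionFieldFull N))
      ↥(laurentBaseChange Qb (modularFunctionFieldFull (N * M))) = M + 1 := hdeg
  rw [hdeg', Fintype.card_prod, Fintype.card_fin, Fintype.card_fin] at hcard
  have := hM.two_le
  omega

end root

section pull

variable (N M : ℕ) [NeZero N] [NeZero M]

theorem lc_neZero_mul : NeZero (N * M) := ⟨Nat.mul_ne_zero (NeZero.ne N) (NeZero.ne M)⟩

theorem lc_beta_isIntegral (hM : M.Prime) : (heckeBetaBar Qb N M).toRingHom.IsIntegral :=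
  (Fermat.Agent.H49.heckeInputsAlong_qbar N M hM).snd.fst

theorem lc_hasPrincipalDivisors :
    HasPrincipalDivisors Qb ↥(laurentBaseChange Qb (modularFunctionFieldFull (N * M))) :=
  haveI := lc_neZero_mul N M
  Fermat.Agent.H58.hasPrincipalDivisors_modularFunctionFieldBar (N * M)

theorem lc_beta_fundamentalIdentity (hM : M.Prime) :
    haveI := lc_hasPrincipalDivisors N M
    FundamentalIdentityAlong Qb (heckeBetaBar Qb N M) (lc_beta_isIntegral N M hM) :=
  (Fermat.Agent.H49.heckeInputsAlong_qbar N M hM).snd.snd.snd.snd.1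

/-- The pullback `β^* : J₀(N) → J₀(N M)` along `q ↦ q^M`. -/
def lcBetaPull (hM : M.Prime) : JZero N →+ JZero (N * M) :=
  haveI := lc_hasPrincipalDivisors N M
  lcPullPic0 (heckeBetaBar Qb N M) (lc_beta_isIntegral N M hM)
    (lc_beta_fundamentalIdentity N M hM)

/-- `β^*` is Galois equivariant. -/
theorem lcBetaPull_smul (hM : M.Prime) (σ : Qb ≃ₐ[ℚ] Qb) (x : JZero N) :
    lcBetaPull N M hM (σ • x) = σ • lcBetaPull N M hM x := by
  haveI := lc_neZero_mul N M
  haveI := lc_hasPrincipalDivisors N M
  obtain ⟨D, rfl⟩ := Pic0.mk_surjective x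
  rw [galois_smul_pic0_def, galois_smul_pic0_def]
  rw [SemilinearAut.pic0_smul_mk]
  have h1 : ∀ E : Divisor.degZero (K := Qb)
      (F := ↥(laurentBaseChange Qb (modularFunctionFieldFull N))),
      lcBetaPull N M hM (Pic0.mk E) = Pic0.mk (lcPullDegZero (heckeBetaBar Qb N M)
        (lc_beta_isIntegral N M hM) (lc_beta_fundamentalIdentity N M hM) E) := fun E => rfl
  rw [h1, h1, SemilinearAut.pic0_smul_mk]
  refine congrArg Pic0.mk (Subtype.ext ?_)
  have key := Fermat.Agent.H49.pullbackAlong_smul_of_intertwines (heckeBetaBar Qb N M)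
    (lc_beta_isIntegral N M hM)
    (Fermat.Agent.H49.intertwines_heckeBetaBar Qb N M σ) (D : Divisor Qb _)
  exact key

/-- `β^*` is injective on torsion (`M` prime, `M ∤ N`). -/
theorem lcBetaPull_eq_zero (hM : M.Prime) (hMN : ¬ M ∣ N) (d : ℕ) (hd : 0 < d) (x : JZero N)
    (hdx : d • x = 0) (hx : lcBetaPull N M hM x = 0) : x = 0 := by
  haveI := lc_neZero_mul N M
  haveI := lc_hasPrincipalDivisors N M
  have hβ := lc_beta_isIntegral N M hM
  have hFI : FundamentalIdentityAlong Qb (heckeBetaBar Qb N M) hβ :=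
    lc_beta_fundamentalIdentity N M hM
  refine lcPullPic0_eq_zero (heckeBetaBar Qb N M) hβ hFI ?_ ?_ d hd ?_ x hdx hx
  · -- constants
    intro u hu hord
    obtain ⟨y, hy, hfd⟩ := Fermat.Agent.H9.ESD.lc_isFunctionField_bar (N * M)
    exact Fermat.Agent.H29.constantStatement Qb _ y hy hfd u hu hord
  · -- surjectivity of the restriction of places
    intro v
    letI := algebraAlong (heckeBetaBar Qb N M)
    haveI := isScalarTower_along (heckeBetaBar Qb N M)
    haveI := isIntegral_along (heckeBetaBar Qb N M) hβ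
    haveI : FundamentalIdentity Qb ↥(laurentBaseChange Qb (modularFunctionFieldFull N))
        ↥(laurentBaseChange Qb (modularFunctionFieldFull (N * M))) := hFI
    have hsum := FundamentalIdentity.sum_ramificationIndex_mul_deg (K := Qb)
      (F' := ↥(laurentBaseChange Qb (modularFunctionFieldFull (N * M)))) v
    have hdeg : Module.finrank ↥(laurentBaseChange Qb (modularFunctionFieldFull N))
        ↥(laurentBaseChange Qb (modularFunctionFieldFull (N * M))) = M + 1 :=
      lc_finrankAlong_beta N M hM hMN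
    rw [hdeg, Fermat.Agent.H9.ESD.lc_deg_eq_one_bar N v] at hsum
    have hne : (v.fiber ↥(laurentBaseChange Qb (modularFunctionFieldFull (N * M)))).Nonempty := by
      rw [Finset.nonempty_iff_ne_empty]
      intro hempty
      rw [hempty, Finset.sum_empty] at hsum
      push_cast at hsum
      omega
    obtain ⟨w, hw⟩ := hne
    exact ⟨w, Place.mem_fiber.mp hw⟩
  · intro f h hf hdiv hpow
    exact lc_root_mem_range N M hM hMN d hd f h hf hdiv hpow

end pull

end Fermat.Agent.H10.FF
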