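/-
P-FF, abstract bridge (helper10): the `ℚ̄`-points of a concrete Hopf order on `Z` are `Z`, and
the bridge theorem `concreteOrderStatement : ConcreteOrderStatement`.
-/
import Mathlib
import Fermat.Agent.H10.FF.Hopf

set_option autoImplicit false
set_option linter.style.haveILetI false
set_option linter.unusedSectionVars false

noncomputable section

open TensorProduct

namespace Fermat.Agent.H10.FF

local notation "Qb" => AlgebraicClosure ℚ

section points

variable {ℓ : ℕ} [Fact ℓ.Prime] {Z : Type} [AddCommGroup Z] [Finite Z] [MulAction GQ Z]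
  {H₀ : Subalgebra (Zl ℓ) (Z → Qb)}
  (hH : IsConcreteHopfOrder ℓ (fun (σ : GQ) (z : Z) => σ • z) H₀)

/-- Evaluation at a point. -/
def ffEvPt (H₀ : Subalgebra (Zl ℓ) (Z → Qb)) (z : Z) : H₀ →ₐ[Zl ℓ] Qb :=
  (Pi.evalAlgHom (Zl ℓ) (fun _ : Z => Qb) z).comp H₀.val

omit [Fact ℓ.Prime] [Finite Z] [MulAction GQ Z] in
@[simp] theorem ffEvPt_apply (z : Z) (h : H₀) : ffEvPt H₀ z h = (h : Z → Qb) z := rfl

include hH in
omit [Fact ℓ.Prime] [Finite Z] in
theorem ffEvPt_injective : Function.Injective (ffEvPt H₀) := by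
  intro z z' hzz
  by_contra hne
  obtain ⟨h, hh, hsep⟩ := hH.separates z z' hne
  exact hsep (DFunLike.congr_fun hzz ⟨h, hh⟩)

omit [Fact ℓ.Prime] [Finite Z] [MulAction GQ Z] in
theorem ff_algHom_indep {n : ℕ} (b : Module.Basis (Fin n) (Zl ℓ) H₀) :
    LinearIndependent Qb (fun φ : H₀ →ₐ[Zl ℓ] Qb => fun i : Fin n => φ (b i)) := by
  have hD := linearIndependent_monoidHom H₀ Qb
  have hD' : LinearIndependent Qb (fun φ : H₀ →ₐ[Zl ℓ] Qb => ((φ : H₀ →* Qb) : H₀ → Qb)) :=
    hD.comp (fun φ : H₀ →ₐ[Zl ℓ] Qb => (φ : H₀ →* Qb)) (by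
      intro φ ψ h
      ext x
      exact DFunLike.congr_fun h x)
  rw [linearIndependent_iff'] at hD' ⊢
  intro s c hc φ hφ
  apply hD' s c _ φ hφ
  funext h
  simp only [Finset.sum_apply, Pi.smul_apply, smul_eq_mul, Pi.zero_apply]
  have hci : ∀ i : Fin n, ∑ ψ ∈ s, c ψ * ψ (b i) = 0 := by
    intro i
    have := congrFun hc i
    simpa using this
  have hh : ∀ ψ : H₀ →ₐ[Zl ℓ] Qb, ψ h = ∑ i, algebraMap (Zl ℓ) Qb (b.repr h i) * ψ (b i) := by
    intro ψ
    conv_lhs => rw [← b.sum_repr h]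
    rw [map_sum]
    refine Finset.sum_congr rfl fun i _ => ?_
    rw [map_smul, Algebra.smul_def]
  calc ∑ ψ ∈ s, c ψ * ((ψ : H₀ →* Qb) : H₀ → Qb) h
      = ∑ ψ ∈ s, c ψ * ∑ i, algebraMap (Zl ℓ) Qb (b.repr h i) * ψ (b i) := by
        refine Finset.sum_congr rfl fun ψ _ => ?_
        rw [← hh ψ]
        rfl
    _ = ∑ i, algebraMap (Zl ℓ) Qb (b.repr h i) * ∑ ψ ∈ s, c ψ * ψ (b i) := by
        simp only [Finset.mul_sum]
        rw [Finset.sum_comm]
        refine Finset.sum_congr rfl fun i _ => Finset.sum_congr rfl fun ψ _ => ?_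
        ring
    _ = 0 := by simp [hci]

include hH in
theorem ff_card_algHom_le : Finite (H₀ →ₐ[Zl ℓ] Qb) ∧ Nat.card (H₀ →ₐ[Zl ℓ] Qb) ≤ Nat.card Z := by
  obtain ⟨n, ⟨b⟩⟩ := ff_exists_basis hH
  have h1 := ff_algHom_indep b
  haveI : Finite (H₀ →ₐ[Zl ℓ] Qb) := h1.finite
  refine ⟨inferInstance, ?_⟩
  haveI := Fintype.ofFinite (H₀ →ₐ[Zl ℓ] Qb)
  haveI := Fintype.ofFinite Z
  have h2 := h1.fintype_card_le_finrank
  have h3 := (ff_basis_indep hH b).fintype_card_le_finrank
  simp only [Module.finrank_fintype_fun_eq_card, Fintype.card_fin] at h2 h3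
  rw [Nat.card_eq_fintype_card, Nat.card_eq_fintype_card]
  exact h2.trans h3

include hH in
theorem ffEvPt_bijective : Function.Bijective (ffEvPt H₀) :=
  haveI := (ff_card_algHom_le hH).1
  (ffEvPt_injective hH).bijective_of_nat_card_le (ff_card_algHom_le hH).2

omit [Fact ℓ.Prime] [Finite Z] [MulAction GQ Z] in
theorem ff_lift_evPt (t : H₀ ⊗[Zl ℓ] H₀) (z z' : Z) :
    Algebra.TensorProduct.lift (ffEvPt H₀ z) (ffEvPt H₀ z') (fun _ _ => Commute.all _ _) t =
      ffEv₂ H₀ t (z, z') := by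
  induction t using TensorProduct.induction_on with
  | zero => simp
  | tmul a b =>
    rw [Algebra.TensorProduct.lift_tmul, ffEv₂_tmul]
    rfl
  | add s t hs ht => simp only [map_add, Pi.add_apply, hs, ht]

/-- **FF-CORE** A concrete Hopf order on a finite group `Z` with an action of `G_ℚ` is a Hopf
model of `Z`. -/
theorem concreteOrderStatement : ConcreteOrderStatement := by
  intro ℓ _ Z _ _ _ H₀ hH
  letI hopf : HopfAlgebra (Zl ℓ) H₀ := ffHopfAlgebra hH
  refine ⟨H₀, inferInstance, hopf, ?_, ?_, ?_, ?_⟩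
  · exact ff_moduleFinite hH
  · haveI := ff_free hH
    exact Module.Flat.of_free
  · exact ff_isCocomm hH
  · let E : Z ≃ WithConv (H₀ →ₐ[Zl ℓ] Qb) :=
      (Equiv.ofBijective (ffEvPt H₀) (ffEvPt_bijective hH)).trans (WithConv.equiv _).symm
    have hE : ∀ (z : Z) (h : H₀), (E z) h = (h : Z → Qb) z := fun z h => rfl
    have hmul : ∀ z z' : Z, E (z + z') = E z * E z' := by
      intro z z'
      apply WithConv.ext
      apply AlgHom.ext
      intro h
      have h1 := AlgHom.convMul_apply (E z) (E z') h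
      refine Eq.trans ?_ h1.symm
      refine Eq.trans ?_ (ff_lift_evPt (ffComul hH h) z z').symm
      rw [ffEv₂_ffComul]
      rfl
    refine ⟨E.symm, ?_, ?_⟩
    · intro f g
      obtain ⟨z, rfl⟩ := E.surjective f
      obtain ⟨z', rfl⟩ := E.surjective g
      rw [← hmul, E.symm_apply_apply, E.symm_apply_apply, E.symm_apply_apply]
    · intro σ f g hfg
      obtain ⟨z, rfl⟩ := E.surjective f
      obtain ⟨z', rfl⟩ := E.surjective g
      rw [E.symm_apply_apply, E.symm_apply_apply]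
      by_contra hne
      obtain ⟨h, hh, hsep⟩ := hH.separates _ _ hne
      apply hsep
      have h2 := hfg ⟨h, hh⟩
      rw [hH.equivariant h hh σ z]
      exact h2

end points

end Fermat.Agent.H10.FF
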