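/-
P-FF row 613 (FF-LC, helper10): `levelChangeFF : Fermat.Agent.H72.FF.LevelChangeFFStatement`.

Hopf models of `J₀(M N)[ℓ^k]` give Hopf models of `J₀(N)[ℓ^k]` for `M` prime, `M ∤ N`:
`β^*` identifies `J₀(N)[ℓ^k]` with a Galois stable subgroup of `J₀(N M)[ℓ^k]`.
-/
import Mathlib
import Fermat.Agent.H10.FF.LCModular
import Fermat.Agent.H10.FF.Points
import Fermat.Agent.H34.FF.SubModel
import Fermat.Agent.H72.FF.GeoInterfaces
import Fermat.Agent.H23.EsA.JTors

set_option autoImplicit false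
set_option linter.style.haveILetI false
set_option synthInstance.maxHeartbeats 400000

noncomputable section

namespace Fermat.Agent.H10.FF

open AlgebraicCurve ModularCurve Fermat.Agent.H72.FF

local notation "Qb" => AlgebraicClosure ℚ

/-- Finiteness of `J₀(N)[ℓ^k]` in the form used by `S19At`. -/
theorem lc_finite_jTors (N : ℕ) [NeZero N] (ℓ k : ℕ) (hℓ : 0 < ℓ) :
    Finite ↥(jTors N ((ℓ : ℤ) ^ k)) := by
  have h := Fermat.Agent.H23.EsA.finite_jTors N (m := ℓ ^ k) (pow_pos hℓ k)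
  have e : jTors N ((ℓ : ℤ) ^ k) = Pic0.torsion Qb ↥(modularFunctionFieldBar N) (ℓ ^ k) := by
    unfold jTors Pic0.torsion
    push_cast
    rfl
  rw [e]
  exact h

/-- Level change for Hopf models along `β^*`, general prime `M ∤ N`. -/
theorem lc_s19At_of_mul (N M : ℕ) [NeZero N] (hM : M.Prime) (hMN : ¬ M ∣ N) (ℓ : ℕ)
    [Fact ℓ.Prime] (k : ℕ) (hS : S19At (N * M) ℓ k) : S19At N ℓ k := by
  haveI : NeZero M := ⟨hM.ne_zero⟩
  haveI : NeZero (N * M) := lc_neZero_mul N M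
  have hℓ : 0 < ℓ := (Fact.out : ℓ.Prime).pos
  set m : ℤ := (ℓ : ℤ) ^ k with hm
  -- the big group
  haveI hfin : Finite ↥(jTors (N * M) m) := lc_finite_jTors (N * M) ℓ k hℓ
  letI act : MulAction GQ ↥(jTors (N * M) m) :=
    { smul := fun σ P => subAct (jTors (N * M) m) (jTors_stable (N * M) m) σ P
      one_smul := fun P => Subtype.ext (one_smul GQ (P : JZero (N * M)))
      mul_smul := fun σ τ P => Subtype.ext (mul_smul σ τ (P : JZero (N * M))) }
  have hS' : HasHopfModel ℓ ↥(jTors (N * M) m)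
      (fun (σ : GQ) (z : ↥(jTors (N * M) m)) => σ • z) := hS
  -- the subgroup
  let Z₁ : AddSubgroup ↥(jTors (N * M) m) :=
    AddSubgroup.comap (jTors (N * M) m).subtype
      (AddSubgroup.map (lcBetaPull N M hM) (jTors N m))
  have hmemZ₁ : ∀ P : ↥(jTors (N * M) m), P ∈ Z₁ ↔
      ∃ x ∈ jTors N m, lcBetaPull N M hM x = (P : JZero (N * M)) := by
    intro P
    rw [AddSubgroup.mem_comap, AddSubgroup.mem_map]
    rfl
  have hZ₁ : ∀ (σ : GQ), ∀ z ∈ Z₁, σ • z ∈ Z₁ := by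
    intro σ z hz
    obtain ⟨x, hx, hxz⟩ := (hmemZ₁ z).mp hz
    rw [hmemZ₁]
    refine ⟨σ • x, jTors_stable N m σ x hx, ?_⟩
    rw [lcBetaPull_smul, hxz]
    rfl
  have hmodel := Fermat.Agent.H34.subgroupModel_of_core concreteOrderStatement ℓ
    ↥(jTors (N * M) m) Z₁ hZ₁ hS'
  -- the isomorphism
  have hpull_mem : ∀ x : ↥(jTors N m), lcBetaPull N M hM (x : JZero N) ∈ jTors (N * M) m := by
    intro x
    rw [mem_jTors, ← map_zsmul, mem_jTors.mp x.2, map_zero]
  let ψ : ↥(jTors N m) →+ ↥Z₁ :=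
    { toFun := fun x => ⟨⟨lcBetaPull N M hM (x : JZero N), hpull_mem x⟩,
        (hmemZ₁ _).mpr ⟨x, x.2, rfl⟩⟩
      map_zero' := by
        apply Subtype.ext
        apply Subtype.ext
        exact map_zero (lcBetaPull N M hM)
      map_add' := fun x y => by
        apply Subtype.ext
        apply Subtype.ext
        exact map_add (lcBetaPull N M hM) _ _ }
  have hψ_coe : ∀ x : ↥(jTors N m),
      (((ψ x : ↥Z₁) : ↥(jTors (N * M) m)) : JZero (N * M)) = lcBetaPull N M hM (x : JZero N) :=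
    fun x => rfl
  have hψ : Function.Bijective ψ := by
    constructor
    · rw [injective_iff_map_eq_zero]
      intro x hx
      have h0 : lcBetaPull N M hM (x : JZero N) = 0 := by
        rw [← hψ_coe, hx]
        rfl
      have hd : (ℓ ^ k) • (x : JZero N) = 0 := by
        have h3 : ((ℓ : ℤ) ^ k) • (x : JZero N) = 0 := mem_jTors.mp x.2
        rw [← natCast_zsmul]
        push_cast
        exact h3
      exact Subtype.ext (lcBetaPull_eq_zero N M hM hMN (ℓ ^ k) (pow_pos hℓ k) _ hd h0)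
    · rintro ⟨P, hP⟩
      obtain ⟨x, hx, hxP⟩ := (hmemZ₁ P).mp hP
      refine ⟨⟨x, hx⟩, ?_⟩
      apply Subtype.ext
      apply Subtype.ext
      exact hxP
  let φ : ↥Z₁ ≃+ ↥(jTors N m) := (AddEquiv.ofBijective ψ hψ).symm
  refine HasHopfModel.congr φ ?_ hmodel
  intro σ z
  obtain ⟨x, rfl⟩ := hψ.2 z
  have h1 : φ (ψ x) = x := (AddEquiv.ofBijective ψ hψ).symm_apply_apply x
  rw [h1]
  have h2 : (⟨σ • ((ψ x : ↥Z₁) : ↥(jTors (N * M) m)), hZ₁ σ _ (ψ x).2⟩ : ↥Z₁)
      = ψ (subAct (jTors N m) (jTors_stable N m) σ x) := by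
    apply Subtype.ext
    apply Subtype.ext
    rw [hψ_coe]
    show σ • lcBetaPull N M hM (x : JZero N) = lcBetaPull N M hM (σ • (x : JZero N))
    rw [lcBetaPull_smul]
  rw [h2]
  exact (AddEquiv.ofBijective ψ hψ).symm_apply_apply _

/-- **FF-LC** (row 613). -/
theorem levelChangeFF : Fermat.Agent.H72.FF.LevelChangeFFStatement := by
  intro N _ M ℓ _ _ hcase hMN hℓN hS k
  have hM : M.Prime := by
    rcases hcase with ⟨rfl, -⟩ | ⟨rfl, -⟩ <;> norm_num
  have hS' : S19At (N * M) ℓ k := by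
    rw [Nat.mul_comm]
    exact hS k
  exact lc_s19At_of_mul N M hM hMN ℓ k hS'

end Fermat.Agent.H10.FF
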